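import Fermat.Agent.DeligneSerre.X1.Gens
import Fermat.Agent.DeligneSerre.WeightOne.RatioForm

/-!
# A weight one form on `Γ₁(L)` with rational expansion, `L ≥ 5` prime

The ratio `℘'(u) / (℘(u) - ℘(2u))` at `u = L τ / L`, lattice `ℤ L τ + ℤ`: its expansion at `∞`
is a quotient of two integral series.
-/

set_option autoImplicit false

noncomputable section

open UpperHalfPlane hiding I
open Complex Filter Function CongruenceSubgroup
open scoped Real Topology MatrixGroups Manifold ModularForm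

namespace FermatAgent.DeligneSerre.Conjugates

open FermatAgent.DeligneSerre.WeightOne (ratioFun ratioAdm_of_prime ratioFun_regular ratioFun_slash
  ratioFun_congr HasCoeff hasSum_wpDeriv_dil wpDerivCoeff sqArith sqArith_of_lt wpDeriv)
open FermatAgent.Igusa (NonzeroMod vecMulSL wpDiff)
open FermatAgent.ModFun (dil coe_dil aff aff_im)
open FermatAgent.ModCurve.Forms (IsMF)

variable {L : ℕ}

/-- `℘'(u) / (℘(u) - ℘(2u))` at the point `u = τ` of the lattice `ℤ L τ + ℤ`. -/
def anchor (L : ℕ) [NeZero L] (τ : ℍ) : ℂ := ratioFun L (1, 0) (dil L τ)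

theorem nonzeroMod_one (hL : L.Prime) : NonzeroMod L ((1 : ℤ), (0 : ℤ)) := fun h =>
  hL.ne_one (Nat.dvd_one.mp (Int.natCast_dvd_natCast.mp (by simpa using h.1)))

theorem ratioFun_one_regular [NeZero L] (hL : L.Prime) (h5 : 5 ≤ L) (γ : SL(2, ℤ)) :
    MDiff (ratioFun L (vecMulSL (1, 0) γ)) ∧ IsBoundedAtImInfty (ratioFun L (vecMulSL (1, 0) γ)) :=
  ratioFun_regular (ratioAdm_of_prime hL h5
    (FermatAgent.Igusa.nonzeroMod_vecMulSL (nonzeroMod_one hL) γ))

theorem mdiff_anchor [NeZero L] (hL : L.Prime) (h5 : 5 ≤ L) : MDiff (anchor L) := by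
  refine FermatAgent.ModFun.mdiff_comp (g := dil L)
    (ratioFun_regular (ratioAdm_of_prime hL h5 (nonzeroMod_one hL))).1 ?_
  simp only [coe_dil]
  exact mdifferentiable_const.mul mdifferentiable_coe

theorem ratioFun_smul (L : ℕ) (u : ℤ × ℤ) (γ : SL(2, ℤ)) (τ : ℍ) :
    ratioFun L u (γ • τ) = denom γ τ * ratioFun L (vecMulSL u γ) τ := by
  have := congrFun (ratioFun_slash L u γ) τ
  rw [ModularForm.SL_slash_apply] at this
  rw [← this, ← mul_assoc, mul_comm (denom _ _), mul_assoc, zpow_neg_one,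
    mul_inv_cancel₀ (denom_ne_zero _ _), mul_one]

theorem anchor_slash [NeZero L] (hL : L.Prime) {γ : SL(2, ℤ)} (hγ : γ ∈ Gamma1 L) :
    anchor L ∣[(1 : ℤ)] γ = anchor L := by
  obtain ⟨h00, h11, h10⟩ := (Gamma1_mem L γ).mp hγ
  obtain ⟨c', hc'⟩ := (ZMod.intCast_zmod_eq_zero_iff_dvd _ _).mp h10
  have hdet := γ.det_coe
  rw [Matrix.det_fin_two] at hdet
  let γ' : SL(2, ℤ) := ⟨!![γ 0 0, (L : ℤ) * γ 0 1; c', γ 1 1],
    by rw [Matrix.det_fin_two_of]; linear_combination hdet + (γ 0 1) * hc'⟩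
  funext τ
  have hc : ((γ 1 0 : ℤ) : ℂ) = L * c' := by exact_mod_cast hc'
  have hd : dil L (γ • τ) = γ' • dil L τ := by
    ext1
    rw [coe_dil, coe_specialLinearGroup_apply, coe_specialLinearGroup_apply, coe_dil]
    simp [γ', hc]
    ring
  have hden : denom γ' (dil L τ) = denom γ τ := by
    rw [ModularGroup.denom_apply, ModularGroup.denom_apply, hc, coe_dil]
    simp [γ']
    ring
  rw [ModularForm.SL_slash_apply, anchor, hd, ratioFun_smul, hden, zpow_neg_one,
    mul_comm (denom _ _), mul_assoc, mul_inv_cancel₀ (denom_ne_zero _ _), mul_one]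
  refine congrFun (ratioFun_congr hL.pos ?_ ?_) _ <;>
    simp only [vecMulSL, γ', Matrix.of_apply, Matrix.cons_val', Matrix.cons_val_zero,
      Matrix.cons_val_one, Matrix.empty_val', Matrix.cons_val_fin_one, one_mul, zero_mul, add_zero]
  · rw [← ZMod.intCast_zmod_eq_zero_iff_dvd]
    push_cast
    rw [h00, sub_self]
  · rw [sub_zero]
    exact dvd_mul_right _ _

theorem isBoundedAtImInfty_anchor_slash [NeZero L] (hL : L.Prime) (h5 : 5 ≤ L) (γ : SL(2, ℤ)) :
    IsBoundedAtImInfty (anchor L ∣[(1 : ℤ)] γ) := by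
  obtain ⟨δ, a, e, b, _, _, hae, hδ, -⟩ := FermatAgent.ModFun.exists_dil_smul L γ
  have ha : (0 : ℝ) < a := Nat.cast_pos.mpr (NeZero.pos a)
  have he : (0 : ℝ) < e := Nat.cast_pos.mpr (NeZero.pos e)
  have hL0 : (0 : ℝ) < L := Nat.cast_pos.mpr (NeZero.pos L)
  set R := ratioFun L (vecMulSL (1, 0) δ) with hR
  set k : ℝ := Real.sqrt (a / e / L)
  have hnorm : ∀ τ, ‖(anchor L ∣[(1 : ℤ)] γ) τ‖ = k * ‖R (aff a e b τ)‖ := by
    intro τ
    rw [ModularForm.SL_slash_apply, anchor, hδ, ratioFun_smul, norm_mul, norm_mul, zpow_neg_one,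
      norm_inv]
    have h1 := ModularGroup.im_smul_eq_div_normSq δ (aff a e b τ)
    have h2 := ModularGroup.im_smul_eq_div_normSq γ τ
    rw [← hδ, FermatAgent.ModFun.dil_im, h2, aff_im] at h1
    have hn1 : Complex.normSq (denom δ (aff a e b τ)) ≠ 0 :=
      Complex.normSq_pos.mpr (denom_ne_zero _ _) |>.ne'
    have hn2 : 0 < Complex.normSq (denom γ τ) := Complex.normSq_pos.mpr (denom_ne_zero _ _)
    have h3 : Complex.normSq (denom δ (aff a e b τ)) =
        a / e / L * Complex.normSq (denom γ τ) := by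
      field_simp at h1 ⊢
      nlinarith [h1, τ.im_pos]
    have h4 : ‖denom δ (aff a e b τ)‖ = k * ‖denom γ τ‖ := by
      rw [Complex.norm_def, Complex.norm_def, h3, Real.sqrt_mul (by positivity)]
    rw [h4, ← hR]
    field_simp [norm_ne_zero_iff.mpr (denom_ne_zero (γ : GL (Fin 2) ℝ) τ)]
  have hb := (ratioFun_one_regular hL h5 δ).2
  have ht : Tendsto (aff a e b) atImInfty atImInfty := by
    rw [atImInfty, tendsto_comap_iff]
    exact (tendsto_comap.const_mul_atTop (div_pos ha he)).congr fun τ => (aff_im a e b τ).symm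
  refine Asymptotics.IsBigO.of_norm_left ?_
  refine (((hb.comp_tendsto ht).norm_left).const_mul_left k).congr_left fun τ => ?_
  simp [hnorm, hR]

/-- The anchor is a modular form of weight one on `Γ₁(L)`. -/
theorem isMF_anchor [NeZero L] (hL : L.Prime) (h5 : 5 ≤ L) : IsMF (Gamma1 L) 1 (anchor L) :=
  ⟨mdiff_anchor hL h5, fun _ hγ => anchor_slash hL hγ,
    fun γ => isBoundedAtImInfty_anchor_slash hL h5 γ⟩

/-- The integral numerator series. -/
def anchorNum (L : ℕ) : PowerSeries ℤ :=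
  PowerSeries.mk fun n => sqArith L (L - 1) (1 : ℤ) n - sqArith L 1 (1 : ℤ) n

/-- The integral denominator series. -/
def anchorDen (L : ℕ) : PowerSeries ℤ := X1.wpSer L 1 - X1.wpSer L 2

theorem anchorNum_ne_zero (h5 : 5 ≤ L) : anchorNum L ≠ 0 := fun h => by
  have := congrArg (PowerSeries.coeff 1) h
  rw [anchorNum, PowerSeries.coeff_mk, sqArith_of_lt _ (Nat.sub_le L 1) (by omega)] at this
  have h1 : 1 % L = 1 := Nat.mod_eq_of_lt (by omega)
  simp [sqArith, Finset.sum_filter, h1] at this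

theorem hasCoeff_anchor_num [NeZero L] (hL : L.Prime) :
    HasCoeff (wpDeriv L (1, 0) ∘ dil L) fun n => ((anchorNum L).coeff n : ℂ) := by
  have hv : NonzeroMod L (((1 : ℕ) : ℤ), (0 : ℤ)) := by simpa using nonzeroMod_one hL
  have h := hasSum_wpDeriv_dil (a := 1) hL.one_lt 0 hv
  rw [zpow_zero] at h
  refine h.congr fun n => ?_
  rw [anchorNum, PowerSeries.coeff_mk, wpDerivCoeff, inv_one, if_neg one_ne_zero]
  rcases eq_or_ne n 0 with rfl | hn
  · simp [WeightOne.sqArith_zero]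
  · simp only [if_neg hn, sqArith, Int.cast_sub, Int.cast_sum, Int.cast_mul, Int.cast_pow,
      Int.cast_natCast, Int.cast_one]

theorem hasCoeff_anchor_den [NeZero L] (hL : L.Prime) (h5 : 5 ≤ L) :
    HasCoeff (wpDiff L (1, 0) (2, 0) ∘ dil L) fun n => ((anchorDen L).coeff n : ℂ) := by
  have h1 : ¬ L ∣ 1 := fun h => hL.ne_one (Nat.dvd_one.mp h)
  have h2 : ¬ L ∣ 2 := fun h => by have := Nat.le_of_dvd two_pos h; omega
  refine HasCoeff.congr (fun τ => FermatAgent.Igusa.hasSum_wpDiff (X1.nonzeroMod_row h1)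
    (X1.nonzeroMod_row h2) τ) fun n => ?_
  rw [X1.wpDiffCoeff_row h1 h2, anchorDen]

theorem anchor_mul_den [NeZero L] (hL : L.Prime) (h5 : 5 ≤ L) :
    anchor L * (wpDiff L (1, 0) (2, 0) ∘ dil L) = wpDeriv L (1, 0) ∘ dil L := by
  have h := ratioAdm_of_prime hL h5 (nonzeroMod_one hL)
  funext τ
  have hne := FermatAgent.Igusa.wpDiff_ne_zero (L := L) h.left h.right h.ne (dil L τ)
  simp only [anchor, ratioFun, Pi.mul_apply, comp_apply]
  norm_num at hne ⊢
  rw [div_mul_cancel₀ _ hne]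

theorem anchor_ne_zero [NeZero L] (hL : L.Prime) (h5 : 5 ≤ L) : anchor L ≠ 0 := fun h => by
  have h1 := anchor_mul_den hL h5
  rw [h, zero_mul] at h1
  have h2 := (hasCoeff_anchor_num hL).congr_fun' h1
  exact anchorNum_ne_zero h5 (PowerSeries.ext fun n => by
    simpa using congrFun (h2.unique WeightOne.hasCoeff_zero) n)

end FermatAgent.DeligneSerre.Conjugates
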