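import Fermat.Agent.DeligneSerre.ImageValues

/-!
# A complex number fixed by every automorphism is rational
-/

set_option autoImplicit false

noncomputable section

namespace FermatAgent.DeligneSerre.Conjugates

open MvPolynomial in
/-- A transcendental number is moved by some automorphism of `ℂ`. -/
theorem exists_ringEquiv_ne_of_transcendental {x : ℂ} (hx : Transcendental ℚ x) :
    ∃ τ : ℂ ≃+* ℂ, τ x ≠ x := by
  classical
  have hind : AlgebraicIndepOn ℚ id ({x} : Set ℂ) :=
    algebraicIndependent_unique_type_iff.mpr hx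
  obtain ⟨s, hxs, hs⟩ := exists_isTranscendenceBasis_superset hind
  let x₀ : s := ⟨x, hxs rfl⟩
  let := IsAlgClosed.isAlgClosure_of_transcendence_basis _ hs
  let up : MvPolynomial s ℚ →ₐ[ℚ] MvPolynomial s ℚ :=
    aeval fun i => X i + if i = x₀ then 1 else 0
  let down : MvPolynomial s ℚ →ₐ[ℚ] MvPolynomial s ℚ :=
    aeval fun i => X i - if i = x₀ then 1 else 0
  have h1 : up.comp down = AlgHom.id ℚ _ := MvPolynomial.algHom_ext fun i => by
    simp only [up, down, AlgHom.comp_apply, aeval_X, map_sub, AlgHom.id_apply]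
    split_ifs <;> simp
  have h2 : down.comp up = AlgHom.id ℚ _ := MvPolynomial.algHom_ext fun i => by
    simp only [up, down, AlgHom.comp_apply, aeval_X, map_add, AlgHom.id_apply]
    split_ifs <;> simp
  let sh : MvPolynomial s ℚ ≃ₐ[ℚ] MvPolynomial s ℚ := AlgEquiv.ofAlgHom up down h1 h2
  let e : Algebra.adjoin ℚ (Set.range ((↑) : s → ℂ)) ≃+*
      Algebra.adjoin ℚ (Set.range ((↑) : s → ℂ)) :=
    ((hs.1.aevalEquiv.symm.trans sh).trans hs.1.aevalEquiv).toRingEquiv
  refine ⟨IsAlgClosure.equivOfEquiv ℂ ℂ e, fun hfix => ?_⟩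
  have hX : ((hs.1.aevalEquiv (X x₀) : Algebra.adjoin ℚ (Set.range ((↑) : s → ℂ))) : ℂ) = x := by
    rw [AlgebraicIndependent.aevalEquiv_apply_coe, aeval_X]
  have h := IsAlgClosure.equivOfEquiv_algebraMap ℂ ℂ e (hs.1.aevalEquiv (X x₀))
  have he : e (hs.1.aevalEquiv (X x₀)) = hs.1.aevalEquiv (X x₀ + 1) := by
    show hs.1.aevalEquiv (sh (hs.1.aevalEquiv.symm (hs.1.aevalEquiv (X x₀)))) = _
    rw [AlgEquiv.symm_apply_apply]
    congr 1
    simp [sh, up]
  rw [he] at h
  change IsAlgClosure.equivOfEquiv ℂ ℂ e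
    ((hs.1.aevalEquiv (X x₀) : Algebra.adjoin ℚ (Set.range ((↑) : s → ℂ))) : ℂ) =
      ((hs.1.aevalEquiv (X x₀ + 1) : Algebra.adjoin ℚ (Set.range ((↑) : s → ℂ))) : ℂ) at h
  rw [map_add, map_one, Subalgebra.coe_add, Subalgebra.coe_one, hX, hfix] at h
  exact one_ne_zero (left_eq_add.mp h)

/-- A number fixed by all automorphisms of `ℂ` is rational. -/
theorem exists_rat_of_fixed {x : ℂ} (h : ∀ τ : ℂ ≃+* ℂ, τ x = x) : ∃ r : ℚ, x = r := by
  by_cases hx : IsAlgebraic ℚ x
  · have hint := hx.isIntegral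
    have : FiniteDimensional ℚ (IntermediateField.adjoin ℚ {x}) :=
      IntermediateField.adjoin.finiteDimensional hint
    have hroots : ∀ y ∈ ((minpoly ℚ x).aroots ℂ).toFinset, y = x := fun y hy => by
      rw [Multiset.mem_toFinset] at hy
      set σ := (IntermediateField.algHomAdjoinIntegralEquiv ℚ hint).symm ⟨y, hy⟩ with hσ
      obtain ⟨τ, hτ⟩ := exists_ringEquiv_extend σ
      have h1 := hτ (IntermediateField.AdjoinSimple.gen ℚ x)
      rw [IntermediateField.AdjoinSimple.coe_gen, h, hσ] at h1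
      exact (h1.trans
        (IntermediateField.algHomAdjoinIntegralEquiv_symm_apply_gen ℚ hint ⟨y, hy⟩)).symm
    have hsep : (minpoly ℚ x).Separable := (minpoly.irreducible hint).separable
    have hcard : (minpoly ℚ x).natDegree ≤ 1 := by
      rw [← IsAlgClosed.card_aroots_eq_natDegree (B := ℂ) (p := minpoly ℚ x),
        ← Multiset.toFinset_card_of_nodup
          (Polynomial.nodup_roots hsep.map)]
      exact Finset.card_le_one.mpr fun a ha b hb => (hroots a ha).trans (hroots b hb).symm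
    have hdeg : (minpoly ℚ x).natDegree = 1 :=
      le_antisymm hcard (minpoly.natDegree_pos hint)
    obtain ⟨r, hr⟩ := minpoly.natDegree_eq_one_iff.mp hdeg
    exact ⟨r, hr.symm.trans (by simp)⟩
  · exact absurd (h _) (exists_ringEquiv_ne_of_transcendental hx).choose_spec

end FermatAgent.DeligneSerre.Conjugates
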