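import Fermat.Agent.DeligneSerre.Conjugates.Rational
import Fermat.Agent.DeligneSerre.Interface
import Fermat.Agent.DeligneSerre.PrimeSums

/-!
# The coefficient field of a weight one eigenform, and an integral eigenform

The hypotheses are those of the Deligne–Serre theorem together with `ConjStable` and
`BoundedDenominators`, which are proved in `Conj.lean` and `Denom.lean`.
-/

set_option autoImplicit false

noncomputable section

open CongruenceSubgroup
open scoped Pointwise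

namespace FermatAgent.DeligneSerre.Conjugates

open ModularFormClass (qCoeff)

variable {N : ℕ} [NeZero N] {ε : DirichletCharacter ℂ N} {f : CuspForm (Gamma1 N) 1}

/-- The ring `ℤ[ε]`. -/
def epsRing (ε : DirichletCharacter ℂ N) : Subalgebra ℤ ℂ := Algebra.adjoin ℤ (Set.range ε)

/-- The `ℤ[ε]`-span of the coefficients. -/
def coeffModule (ε : DirichletCharacter ℂ N) (f : CuspForm (Gamma1 N) 1) : Submodule ℤ ℂ :=
  Submodule.span ℤ {x | ∃ r ∈ epsRing ε, ∃ n, x = r * qCoeff f n}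

theorem coeffModule_fg (b : RatBasis N) : (coeffModule ε f).FG := by
  let A : Submodule ℤ ℂ := Submodule.span ℤ
    (Set.range fun i : b.idx => qCoeff f (i : ℕ) / (b.denom : ℂ))
  have hR : (Subalgebra.toSubmodule (epsRing ε)).FG :=
    fg_adjoin_of_finite (Set.finite_range ε) fun x ⟨d, hd⟩ => hd ▸ isIntegral_char ε d
  have hA : A.FG := Submodule.fg_span (Set.finite_range _)
  have hle : coeffModule ε f ≤ Subalgebra.toSubmodule (epsRing ε) * A := by
    refine Submodule.span_le.mpr ?_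
    rintro x ⟨r, hr, n, rfl⟩
    refine Submodule.mul_mem_mul hr ?_
    rw [b.expand f n]
    refine Submodule.sum_mem _ fun i _ => ?_
    obtain ⟨z, hz⟩ := b.integral i n
    have hD : (b.denom : ℂ) ≠ 0 := Int.cast_ne_zero.mpr b.denom_ne
    have e : qCoeff f (i : ℕ) * (b.coeff i n : ℂ) = z • (qCoeff f (i : ℕ) / (b.denom : ℂ)) := by
      rw [zsmul_eq_mul, ← hz]
      field_simp
    rw [e]
    exact A.smul_mem z (Submodule.subset_span ⟨i, rfl⟩)
  have : IsNoetherian ℤ (Subalgebra.toSubmodule (epsRing ε) * A : Submodule ℤ ℂ) :=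
    isNoetherian_of_fg_of_noetherian _ (hR.mul hA)
  exact Submodule.FG.of_le_of_isNoetherian hle

omit [NeZero N] in
theorem one_mem_coeffModule (hf₁ : qCoeff f 1 = 1) : (1 : ℂ) ∈ coeffModule ε f :=
  Submodule.subset_span ⟨1, one_mem _, 1, by rw [hf₁, mul_one]⟩

omit [NeZero N] in
theorem eps_mul_mem {x : ℂ} (d : ZMod N) (hx : x ∈ coeffModule ε f) :
    ε d * x ∈ coeffModule ε f := by
  induction hx using Submodule.span_induction with
  | mem x hx =>
    obtain ⟨r, hr, n, rfl⟩ := hx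
    exact Submodule.subset_span
      ⟨ε d * r, mul_mem (Algebra.subset_adjoin ⟨d, rfl⟩) hr, n, (mul_assoc _ _ _).symm⟩
  | zero => rw [mul_zero]; exact zero_mem _
  | add x y _ _ hx hy => rw [mul_add]; exact add_mem hx hy
  | smul z x _ hx => rw [mul_smul_comm]; exact Submodule.smul_mem _ z hx

omit [NeZero N] in
theorem eigen_mul_mem
    (hT : ∀ p : ℕ, p.Prime → ¬ p ∣ N → ∀ n : ℕ,
      qCoeff f (p * n) + ε (p : ZMod N) * (if p ∣ n then qCoeff f (n / p) else 0) =
        qCoeff f p * qCoeff f n)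
    {p : ℕ} (hp : p.Prime) (hpN : ¬ p ∣ N) {x : ℂ} (hx : x ∈ coeffModule ε f) :
    qCoeff f p * x ∈ coeffModule ε f := by
  induction hx using Submodule.span_induction with
  | mem x hx =>
    obtain ⟨r, hr, n, rfl⟩ := hx
    rw [mul_left_comm, ← hT p hp hpN n, mul_add]
    refine add_mem (Submodule.subset_span ⟨r, hr, p * n, rfl⟩) ?_
    split_ifs
    · rw [← mul_assoc, mul_comm r, mul_assoc]
      exact eps_mul_mem _ (Submodule.subset_span ⟨r, hr, n / p, rfl⟩)
    · rw [mul_zero, mul_zero]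
      exact zero_mem _
  | zero => rw [mul_zero]; exact zero_mem _
  | add x y _ _ hx hy => rw [mul_add]; exact add_mem hx hy
  | smul z x _ hx => rw [mul_smul_comm]; exact Submodule.smul_mem _ z hx

/-- The eigenvalues at the good primes are algebraic integers. -/
theorem isIntegral_eigen (b : RatBasis N) (hf₁ : qCoeff f 1 = 1)
    (hT : ∀ p : ℕ, p.Prime → ¬ p ∣ N → ∀ n : ℕ,
      qCoeff f (p * n) + ε (p : ZMod N) * (if p ∣ n then qCoeff f (n / p) else 0) =
        qCoeff f p * qCoeff f n)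
    {p : ℕ} (hp : p.Prime) (hpN : ¬ p ∣ N) : IsIntegral ℤ (qCoeff f p) :=
  isIntegral_of_smul_mem_submodule (coeffModule ε f)
    (fun h => one_ne_zero <| (Submodule.mem_bot ℤ).mp
      (h ▸ one_mem_coeffModule (ε := ε) hf₁ : (1 : ℂ) ∈ (⊥ : Submodule ℤ ℂ)))
    (coeffModule_fg b) _ fun _ hx => eigen_mul_mem hT hp hpN hx

/-- The good eigenvalues and the values of `ε`. -/
def eigenValues (ε : DirichletCharacter ℂ N) (f : CuspForm (Gamma1 N) 1) : Set ℂ :=
  Set.range ε ∪ (fun p => qCoeff f p) '' {p | p.Prime ∧ ¬ p ∣ N}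

/-- They generate a number field. -/
theorem finiteDimensional_adjoin_eigenValues (b : RatBasis N) (hf₁ : qCoeff f 1 = 1)
    (hT : ∀ p : ℕ, p.Prime → ¬ p ∣ N → ∀ n : ℕ,
      qCoeff f (p * n) + ε (p : ZMod N) * (if p ∣ n then qCoeff f (n / p) else 0) =
        qCoeff f p * qCoeff f n) :
    FiniteDimensional ℚ (IntermediateField.adjoin ℚ (eigenValues ε f)) := by
  have halg : ∀ x ∈ eigenValues ε f, IsAlgebraic ℚ x := by
    rintro x (⟨d, rfl⟩ | ⟨p, ⟨hp, hpN⟩, rfl⟩)
    · exact (isIntegral_char ε d).tower_top.isAlgebraic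
    · exact (isIntegral_eigen b hf₁ hT hp hpN).tower_top.isAlgebraic
  obtain ⟨G, hG⟩ := coeffModule_fg (ε := ε) (f := f) b
  have hmul : ∀ x ∈ Submonoid.closure (eigenValues ε f),
      ∀ y ∈ coeffModule ε f, x * y ∈ coeffModule ε f := fun x hx => by
    induction hx using Submonoid.closure_induction with
    | mem x hx =>
      rcases hx with ⟨d, rfl⟩ | ⟨p, ⟨hp, hpN⟩, rfl⟩
      · exact fun y hy => eps_mul_mem d hy
      · exact fun y hy => eigen_mul_mem hT hp hpN hy
    | one => exact fun y hy => by rwa [one_mul]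
    | mul x y _ _ hx hy => exact fun z hz => by rw [mul_assoc]; exact hx _ (hy _ hz)
  have hle : Subalgebra.toSubmodule (Algebra.adjoin ℚ (eigenValues ε f)) ≤
      Submodule.span ℚ (G : Set ℂ) := by
    rw [Algebra.adjoin_eq_span, Submodule.span_le]
    intro x hx
    have h := hmul x hx 1 (one_mem_coeffModule hf₁)
    rw [mul_one, ← hG] at h
    exact Submodule.span_le_restrictScalars ℤ ℚ (G : Set ℂ) h
  have : FiniteDimensional ℚ (Submodule.span ℚ (G : Set ℂ)) :=
    FiniteDimensional.span_of_finite ℚ G.finite_toSet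
  have h2 : FiniteDimensional ℚ
      (Subalgebra.toSubmodule (Algebra.adjoin ℚ (eigenValues ε f))) :=
    Submodule.finiteDimensional_of_le hle
  rw [← IntermediateField.adjoin_toSubalgebra_of_isAlgebraic halg] at h2
  exact h2

/-- **The coefficient field.** -/
theorem coeffField_of_eigen (h1 : ConjStable N) (h2 : BoundedDenominators N)
    (hf₁ : qCoeff f 1 = 1)
    (hT : ∀ p : ℕ, p.Prime → ¬ p ∣ N → ∀ n : ℕ,
      qCoeff f (p * n) + ε (p : ZMod N) * (if p ∣ n then qCoeff f (n / p) else 0) =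
        qCoeff f p * qCoeff f n) :
    CoeffField (qCoeff f) ε := by
  obtain ⟨b⟩ := exists_ratBasis N h1 h2
  refine ⟨fun p hp hpN => isIntegral_eigen b hf₁ hT hp hpN,
    ⟨_, finiteDimensional_adjoin_eigenValues b hf₁ hT, fun p hp hpN =>
      ⟨IntermediateField.subset_adjoin ℚ _ (Or.inr ⟨p, ⟨hp, hpN⟩, rfl⟩),
        IntermediateField.subset_adjoin ℚ _ (Or.inl ⟨_, rfl⟩)⟩⟩, fun τ => ?_⟩
  obtain ⟨g, hg⟩ := h1 τ f
  have hg₁ : qCoeff g 1 = 1 := by rw [hg, hf₁, map_one]
  have hgT : ∀ p : ℕ, p.Prime → ¬ p ∣ N → ∀ n : ℕ,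
      qCoeff g (p * n) + ε.ringHomComp τ.toRingHom (p : ZMod N) *
        (if p ∣ n then qCoeff g (n / p) else 0) = qCoeff g p * qCoeff g n := fun p hp hpN n => by
    have h := congrArg τ (hT p hp hpN n)
    rw [map_add, map_mul, map_mul, apply_ite τ, map_zero] at h
    simp only [hg, MulChar.ringHomComp_apply]
    exact h
  obtain ⟨C, -, hC⟩ := exists_sum_qCoeff_sq_le g
  obtain ⟨K, -, hK⟩ := (primeMult_qCoeff hg₁ hgT).exists_sum_le hC
  refine ⟨K, fun s hs hs' T hT' => ?_⟩
  have h := hK s hs (by linarith) T fun p hp => hT' p hp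
  rw [one_div, Real.log_inv] at h
  simp only [← hg]
  linarith

/-- **An integral eigenform** with the same eigenvalues. -/
theorem exists_integral_eigenform (h1 : ConjStable N) (h2 : BoundedDenominators N)
    (hf₁ : qCoeff f 1 = 1)
    (hT : ∀ p : ℕ, p.Prime → ¬ p ∣ N → ∀ n : ℕ,
      qCoeff f (p * n) + ε (p : ZMod N) * (if p ∣ n then qCoeff f (n / p) else 0) =
        qCoeff f p * qCoeff f n) :
    ∃ f₀ : CuspForm (Gamma1 N) 1, (∀ n, IsIntegral ℤ (qCoeff f₀ n)) ∧ qCoeff f₀ 1 ≠ 0 ∧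
      ∀ p : ℕ, p.Prime → ¬ p ∣ N → ∀ n : ℕ,
        qCoeff f₀ (p * n) + ε (p : ZMod N) * (if p ∣ n then qCoeff f₀ (n / p) else 0) =
          qCoeff f p * qCoeff f₀ n := by
  obtain ⟨b⟩ := exists_ratBasis N h1 h2
  let E := IntermediateField.adjoin ℚ (eigenValues ε f)
  have : FiniteDimensional ℚ E := finiteDimensional_adjoin_eigenValues b hf₁ hT
  obtain ⟨π, hπ⟩ := LinearMap.exists_leftInverse_of_injective (Algebra.linearMap E ℂ)
    (LinearMap.ker_eq_bot.mpr (algebraMap E ℂ).injective)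
  have hsm : ∀ (c x : ℂ), c ∈ E → (π (c * x) : ℂ) = c * (π x : ℂ) := fun c x hc => by
    have h := congrArg Subtype.val (map_smul π (⟨c, hc⟩ : E) x)
    simpa [IntermediateField.smul_def, smul_eq_mul] using h
  have hπ1 : (π 1 : ℂ) = 1 := by
    have h := LinearMap.congr_fun hπ (1 : E)
    simpa using congrArg Subtype.val h
  set g := ∑ i : b.idx, (π (qCoeff f (i : ℕ)) : ℂ) • b.form i with hgdef
  have hg : ∀ n, qCoeff g n = (π (qCoeff f n) : ℂ) := fun n => by
    rw [← qc_apply, hgdef, map_sum, b.expand f n, map_sum, AddSubmonoidClass.coe_finsetSum]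
    refine Finset.sum_congr rfl fun i _ => ?_
    rw [map_smul, qc_apply, b.qCoeff_form, smul_eq_mul, mul_comm (qCoeff f _) (b.coeff i n : ℂ),
      hsm _ _ (SubfieldClass.ratCast_mem E _), mul_comm]
  have hint : ∀ i : b.idx, ∃ z : ℤ, z ≠ 0 ∧ IsIntegral ℤ ((z : ℂ) * (π (qCoeff f (i : ℕ)) : ℂ)) :=
    fun i => by
      have ha : IsAlgebraic ℚ ((π (qCoeff f (i : ℕ)) : E) : ℂ) :=
        IntermediateField.isAlgebraic_iff.mp
          (Algebra.IsAlgebraic.isAlgebraic (π (qCoeff f (i : ℕ))))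
      obtain ⟨z, hz, h⟩ := ((IsFractionRing.isAlgebraic_iff ℤ ℚ ℂ).mpr ha).exists_integral_multiple
      exact ⟨z, hz, by rwa [zsmul_eq_mul] at h⟩
  choose z hz hzint using hint
  let c : ℂ := b.denom * ∏ i, (z i : ℂ)
  have hc : c ≠ 0 := mul_ne_zero (Int.cast_ne_zero.mpr b.denom_ne)
    (Finset.prod_ne_zero_iff.mpr fun i _ => Int.cast_ne_zero.mpr (hz i))
  have hcg : ∀ n, qCoeff ⇑(c • g : CuspForm (Gamma1 N) 1) n = c * qCoeff g n := fun n => by
    change qc N n (c • g) = _
    rw [map_smul, qc_apply, smul_eq_mul]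
  refine ⟨c • g, fun n => ?_, ?_, fun p hp hpN n => ?_⟩
  · rw [hcg, ← qc_apply, hgdef, map_sum, Finset.mul_sum]
    refine IsIntegral.sum _ fun i _ => ?_
    obtain ⟨w, hw⟩ := b.integral i n
    rw [map_smul, qc_apply, b.qCoeff_form, smul_eq_mul,
      show c * ((π (qCoeff f (i : ℕ)) : ℂ) * (b.coeff i n : ℂ)) =
        (∏ j ∈ Finset.univ.erase i, (z j : ℂ)) * ((z i : ℂ) * (π (qCoeff f (i : ℕ)) : ℂ)) *
          ((b.denom : ℂ) * (b.coeff i n : ℂ)) by
        simp only [c]
        rw [← Finset.mul_prod_erase Finset.univ (fun j => (z j : ℂ)) (Finset.mem_univ i)]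
        ring, hw]
    refine ((IsIntegral.prod _ fun j _ => ?_).mul (hzint i)).mul ?_ <;>
      exact isIntegral_algebraMap
  · rw [hcg, hg, hf₁, hπ1, mul_one]
    exact hc
  · have hmem : ε (p : ZMod N) ∈ E ∧ qCoeff f p ∈ E :=
      ⟨IntermediateField.subset_adjoin ℚ _ (Or.inl ⟨_, rfl⟩),
        IntermediateField.subset_adjoin ℚ _ (Or.inr ⟨p, ⟨hp, hpN⟩, rfl⟩)⟩
    have h := congrArg (fun x => c * (π x : ℂ)) (hT p hp hpN n)
    simp only [map_add, IntermediateField.coe_add, hsm _ _ hmem.1, hsm _ _ hmem.2,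
      apply_ite π, map_zero, apply_ite Subtype.val, IntermediateField.coe_zero, mul_add] at h
    simp only [hcg, hg]
    split_ifs at h ⊢ <;> linear_combination h

end FermatAgent.DeligneSerre.Conjugates
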