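import Mathlib.Analysis.Complex.RemovableSingularity
import Mathlib.Analysis.Complex.UpperHalfPlane.Manifold
import Mathlib.Analysis.Analytic.IsolatedZeros
import Mathlib.NumberTheory.ModularForms.Basic


/-!
# Holomorphy of quotients satisfying a monic equation

If `a, b` are holomorphic on `ℍ`, `b` is not identically zero and `a / b` satisfies a monic
equation with holomorphic coefficients, then `a / b` extends holomorphically.
-/

set_option autoImplicit false

noncomputable section

open UpperHalfPlane hiding I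
open Complex Filter Function Set
open scoped Topology Manifold

namespace FermatAgent.DeligneSerre.Conjugates

/-- A root of a monic equation is bounded by the coefficients. -/
theorem norm_le_of_monic_eq {d : ℕ} {r : ℂ} {e : ℕ → ℂ}
    (h : r ^ d + ∑ i ∈ Finset.range d, e i * r ^ i = 0) :
    ‖r‖ ≤ 1 + ∑ i ∈ Finset.range d, ‖e i‖ := by
  have hs : 0 ≤ ∑ i ∈ Finset.range d, ‖e i‖ := Finset.sum_nonneg fun i _ => norm_nonneg _
  rcases le_total ‖r‖ 1 with h1 | h1
  · linarith
  rcases Nat.eq_zero_or_pos d with rfl | hd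
  · simp at h
  obtain ⟨k, rfl⟩ : ∃ k, d = k + 1 := ⟨d - 1, by omega⟩
  have h2 : ‖r‖ ^ (k + 1) ≤ (∑ i ∈ Finset.range (k + 1), ‖e i‖) * ‖r‖ ^ k := by
    rw [← norm_pow, eq_neg_of_add_eq_zero_left h, norm_neg, Finset.sum_mul]
    refine (norm_sum_le _ _).trans (Finset.sum_le_sum fun i hi => ?_)
    rw [norm_mul, norm_pow]
    exact mul_le_mul_of_nonneg_left
      (pow_le_pow_right₀ h1 (Finset.mem_range_succ_iff.mp hi)) (norm_nonneg _)
  rw [pow_succ'] at h2
  linarith [le_of_mul_le_mul_right h2 (pow_pos (by linarith) k)]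

/-- The extension of `a / b`. -/
def quotExt (a b : ℍ → ℂ) (τ : ℍ) : ℂ :=
  limUnder (𝓝[≠] (τ : ℂ)) fun z => a (ofComplex z) / b (ofComplex z)

theorem div_monic_eq {a b : ℂ} (hb : b ≠ 0) {d : ℕ} {e : ℕ → ℂ}
    (h : a ^ d + ∑ i ∈ Finset.range d, e i * a ^ i * b ^ (d - i) = 0) :
    (a / b) ^ d + ∑ i ∈ Finset.range d, e i * (a / b) ^ i = 0 := by
  have key : ((a / b) ^ d + ∑ i ∈ Finset.range d, e i * (a / b) ^ i) * b ^ d = 0 := by
    rw [← h, add_mul, Finset.sum_mul, div_pow, div_mul_cancel₀ _ (pow_ne_zero _ hb)]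
    congr 1
    refine Finset.sum_congr rfl fun i hi => ?_
    rw [← Nat.add_sub_of_le (Finset.mem_range.mp hi).le, pow_add, Nat.add_sub_cancel_left,
      div_pow]
    field_simp
  exact (mul_eq_zero.mp key).resolve_right (pow_ne_zero _ hb)

theorem exists_holo_quot {a b : ℍ → ℂ} (ha : MDiff a) (hb : MDiff b) (hb0 : b ≠ 0) {d : ℕ}
    {e : ℕ → ℍ → ℂ} (he : ∀ i < d, MDiff (e i))
    (h : ∀ τ, a τ ^ d + ∑ i ∈ Finset.range d, e i τ * a τ ^ i * b τ ^ (d - i) = 0) :
    ∃ F : ℍ → ℂ, MDiff F ∧ a = b * F ∧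
      ∀ τ, F τ ^ d + ∑ i ∈ Finset.range d, e i τ * F τ ^ i = 0 := by
  set U : Set ℂ := upperHalfPlaneSet
  have hU : IsOpen U := isOpen_upperHalfPlaneSet
  have hUc : IsPreconnected U := (convex_halfSpace_im_gt 0).isPreconnected
  have hA : DifferentiableOn ℂ (a ∘ ofComplex) U := UpperHalfPlane.mdifferentiable_iff.mp ha
  have hB : DifferentiableOn ℂ (b ∘ ofComplex) U := UpperHalfPlane.mdifferentiable_iff.mp hb
  have hE : ∀ i < d, ContinuousOn (e i ∘ ofComplex) U := fun i hi =>
    (UpperHalfPlane.mdifferentiable_iff.mp (he i hi)).continuousOn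
  set r : ℂ → ℂ := fun z => a (ofComplex z) / b (ofComplex z) with hr
  set F₀ : ℂ → ℂ := fun z => limUnder (𝓝[≠] z) r with hF₀
  have hrd : ∀ z ∈ U, b (ofComplex z) ≠ 0 → DifferentiableAt ℂ r z := fun z hz hbz =>
    ((hA.differentiableAt (hU.mem_nhds hz)).div (hB.differentiableAt (hU.mem_nhds hz)) hbz :)
  have hval : ∀ z ∈ U, b (ofComplex z) ≠ 0 → F₀ z = r z := fun z hz hbz =>
    ((hrd z hz hbz).continuousAt.tendsto.mono_left nhdsWithin_le_nhds).limUnder_eq
  have hiso : ∀ z ∈ U, ∀ᶠ w in 𝓝[≠] z, b (ofComplex w) ≠ 0 := by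
    intro z hz
    rcases ((hB.analyticOnNhd hU) z hz).eventually_eq_zero_or_eventually_ne_zero with h0 | h0
    · refine absurd ?_ hb0
      have := (hB.analyticOnNhd hU).eqOn_zero_of_preconnected_of_eventuallyEq_zero hUc hz h0
      funext τ
      simpa [ofComplex_apply] using this τ.im_pos
    · exact h0
  have hF₀d : ∀ z ∈ U, DifferentiableAt ℂ F₀ z := by
    intro z hz
    obtain ⟨δ, hδ, hsub⟩ := Metric.isOpen_iff.mp hU z hz
    obtain ⟨ε, hε, hne⟩ := Metric.eventually_nhds_iff.mp
      (eventually_nhdsWithin_iff.mp (hiso z hz))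
    set ρ := min δ ε / 2 with hρ
    have hρ0 : 0 < ρ := by positivity
    have hρδ : ρ < δ := by
      have := min_le_left δ ε; linarith
    have hρε : ρ < ε := by
      have := min_le_right δ ε; linarith
    have hcl : Metric.closedBall z ρ ⊆ U := (Metric.closedBall_subset_ball hρδ).trans hsub
    have hnz : ∀ w ∈ Metric.ball z ρ \ {z}, b (ofComplex w) ≠ 0 := fun w hw =>
      hne ((Metric.mem_ball.mp hw.1).trans hρε) hw.2
    have hbU : ∀ w ∈ Metric.ball z ρ, w ∈ U := fun w hw => hcl (Metric.ball_subset_closedBall hw)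
    have hd' : DifferentiableOn ℂ r (Metric.ball z ρ \ {z}) := fun w hw =>
      (hrd w (hbU w hw.1) (hnz w hw)).differentiableWithinAt
    have hcont : ContinuousOn
        (fun w => 1 + ∑ i ∈ Finset.range d, ‖e i (ofComplex w)‖) (Metric.closedBall z ρ) :=
      continuousOn_const.add (continuousOn_finsetSum _ fun i hi =>
        ((hE i (Finset.mem_range.mp hi)).mono hcl).norm)
    obtain ⟨C, hC⟩ := ((isCompact_closedBall z ρ).bddAbove_image hcont)
    have hbdd : BddAbove (norm ∘ r '' (Metric.ball z ρ \ {z})) := by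
      refine ⟨C, ?_⟩
      rintro _ ⟨w, hw, rfl⟩
      refine le_trans ?_ (hC ⟨w, Metric.ball_subset_closedBall hw.1, rfl⟩)
      exact norm_le_of_monic_eq (div_monic_eq (hnz w hw) (h (ofComplex w)))
    have hup := Complex.differentiableOn_update_limUnder_of_bddAbove
      (Metric.ball_mem_nhds z hρ0) hd' hbdd
    refine (hup.differentiableAt (Metric.ball_mem_nhds z hρ0)).congr_of_eventuallyEq ?_
    filter_upwards [Metric.ball_mem_nhds z hρ0] with w hw
    rcases eq_or_ne w z with rfl | hwz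
    · simp [hF₀]
    · rw [Function.update_of_ne hwz]
      exact hval w (hbU w hw) (hnz w ⟨hw, hwz⟩)
  have hFd : MDiff (quotExt a b) := by
    rw [UpperHalfPlane.mdifferentiable_iff]
    exact fun z hz => ((hF₀d z hz).differentiableWithinAt).congr
      (fun w hw => by simp [quotExt, hF₀, hr, ofComplex_apply_of_im_pos hw])
      (by simp [quotExt, hF₀, hr, ofComplex_apply_of_im_pos hz])
  have hFval : ∀ τ : ℍ, b τ ≠ 0 → quotExt a b τ = a τ / b τ := fun τ hτ => by
    have := hval (τ : ℂ) τ.im_pos (by rwa [ofComplex_apply])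
    simpa [hF₀, hr, quotExt, ofComplex_apply] using this
  have cancel : ∀ G : ℍ → ℂ, MDiff G → (∀ τ, b τ ≠ 0 → G τ = 0) → G = 0 := by
    intro G hG hG0
    refine ((UpperHalfPlane.mul_eq_zero_iff hb hG).mp (funext fun τ => ?_)).resolve_left hb0
    by_cases hτ : b τ = 0
    · simp [hτ]
    · simp [hG0 τ hτ]
  refine ⟨quotExt a b, hFd, ?_, ?_⟩
  · refine sub_eq_zero.mp (cancel _ (ha.sub (hb.mul hFd)) fun τ hτ => ?_)
    simp [hFval τ hτ, mul_div_cancel₀ _ hτ]
  · refine congrFun (cancel (fun τ => quotExt a b τ ^ d +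
        ∑ i ∈ Finset.range d, e i τ * quotExt a b τ ^ i) ?_ fun τ hτ => ?_)
    · have hpow : ∀ n, MDiff (fun τ => quotExt a b τ ^ n) := fun n => by
        induction n with
        | zero => simpa using! mdifferentiable_const
        | succ n ih => simpa [pow_succ] using! ih.mul hFd
      refine (hpow d).add ?_
      have hs := MDifferentiable.sum (t := Finset.range d)
        fun i hi => (he i (Finset.mem_range.mp hi)).mul (hpow i)
      simpa [Finset.sum_fn] using! hs
    · simp only [hFval τ hτ]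
      exact div_monic_eq hτ (h τ)

end FermatAgent.DeligneSerre.Conjugates
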