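import Fermat.Agent.DeligneSerre.X1.LevelOf

/-!
# The cusp bound of an invariant function through its equation over `ℂ[j]`

`y Δ ^ m` vanishes at every cusp iff, in the equation `Φ(j, y) = 0` of degree `n` whose roots are
the conjugates, the coefficient of `Y ^ i` has degree `< m (n - i)` in `j`.
-/

set_option autoImplicit false

noncomputable section

open UpperHalfPlane hiding I
open Complex Filter Function Polynomial
open scoped Topology MatrixGroups Manifold ModularForm

namespace FermatAgent.DeligneSerre.Conjugates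

open FermatAgent.ModFun (jFun cuspRing IsTame)
open FermatAgent.DeligneSerre.X1 (levelRingOf conjOf conjOf_one exists_equationOf)

local notation "Δ" => ModularForm.discriminant

/-- `y Δ ^ m` vanishes at every cusp. -/
def CuspBound (m : ℕ) (y : ℍ → ℂ) : Prop :=
  ∀ γ : SL(2, ℤ), IsZeroAtImInfty fun τ => y (γ • τ) * Δ τ ^ m

/-- The coefficient of `Y ^ i` has degree `< m (deg - i)`. -/
def PolyBound (m : ℕ) {R : Type*} [CommRing R] (Φ : R[X][X]) : Prop :=
  ∀ i < Φ.natDegree, ∀ l, m * (Φ.natDegree - i) ≤ l → (Φ.coeff i).coeff l = 0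

theorem tendsto_jFun_mul_discriminant :
    Tendsto (fun τ => jFun τ * Δ τ) atImInfty (𝓝 1) := by
  have h := (FermatAgent.ModFun.analyticAt_cuspFunction_of_mem
    (FermatAgent.ModFun.modularForm_mem_cuspRing ModularForm.E₄)
    (ModularFormClass.bdd_at_infty _)).continuousAt.tendsto.comp
      (qParam_tendsto_atImInfty (h := 1) one_pos)
  have h0 : cuspFunction 1 (ModularForm.E₄ : ℍ → ℂ) 0 = 1 := by
    have := EisensteinSeries.E_qExpansion_coeff_zero (k := 4) (by norm_num) ⟨2, rfl⟩
    simpa [qExpansion_coeff] using this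
  rw [h0] at h
  have h1 : Tendsto (fun τ : ℍ => ModularForm.E₄ τ ^ 3) atImInfty (𝓝 1) := by
    simpa using (h.congr fun τ =>
      SlashInvariantFormClass.eq_cuspFunction ModularForm.E₄ τ one_mem_strictPeriods_SL
        one_ne_zero).pow 3
  refine h1.congr fun τ => ?_
  rw [jFun, div_mul_cancel₀ _ (ModularForm.discriminant_ne_zero τ)]

theorem tendsto_discriminant : Tendsto (fun τ => Δ τ) atImInfty (𝓝 0) :=
  ModularForm.discriminant_isZeroAtImInfty

theorem tendsto_jFun_pow_mul {l k : ℕ} (h : l ≤ k) :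
    Tendsto (fun τ => jFun τ ^ l * Δ τ ^ k) atImInfty (𝓝 (if l = k then 1 else 0)) := by
  have e : (fun τ => jFun τ ^ l * Δ τ ^ k) = fun τ => (jFun τ * Δ τ) ^ l * Δ τ ^ (k - l) :=
    funext fun τ => by rw [mul_pow, mul_assoc, ← pow_add, Nat.add_sub_cancel' h]
  rw [e]
  split_ifs with hlk
  · subst hlk
    simpa using tendsto_jFun_mul_discriminant.pow l
  · have := (tendsto_jFun_mul_discriminant.pow l).mul (tendsto_discriminant.pow (k - l))
    rwa [zero_pow (by omega), mul_zero] at this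

theorem tendsto_eval_jFun {k : ℕ} {e : ℂ[X]} (he : ∀ l, k ≤ l → e.coeff l = 0) :
    Tendsto (fun τ => e.eval (jFun τ) * Δ τ ^ k) atImInfty (𝓝 0) := by
  rcases Nat.eq_zero_or_pos k with rfl | hk
  · have : e = 0 := Polynomial.ext fun l => by simpa using he l (Nat.zero_le l)
    simp [this]
  have hdeg : e.natDegree < k := by
    by_contra hc
    push Not at hc
    rcases eq_or_ne e 0 with rfl | h0
    · simp at hc; omega
    · exact leadingCoeff_ne_zero.mpr h0 (he _ hc)
  have h := tendsto_finsetSum (Finset.range k) fun l hl =>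
    (tendsto_jFun_pow_mul (Finset.mem_range.mp hl).le).const_mul (e.coeff l)
  refine Tendsto.congr' (Eventually.of_forall fun τ => ?_) (h.trans_eq ?_)
  · simp only
    rw [Polynomial.eval_eq_sum_range' hdeg, Finset.sum_mul]
    exact Finset.sum_congr rfl fun l _ => by ring
  · rw [Finset.sum_eq_zero fun l hl => by rw [if_neg (Finset.mem_range.mp hl).ne, mul_zero]]

theorem coeff_eq_zero_of_tendsto {k : ℕ} {e : ℂ[X]}
    (h : Tendsto (fun τ => e.eval (jFun τ) * Δ τ ^ k) atImInfty (𝓝 0)) {l : ℕ} (hl : k ≤ l) :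
    e.coeff l = 0 := by
  have := FermatAgent.ModFun.atImInfty_neBot
  rcases lt_or_ge e.natDegree l with hlt | hge
  · exact coeff_eq_zero_of_natDegree_lt hlt
  suffices h0 : e.leadingCoeff = 0 by simp [leadingCoeff_eq_zero.mp h0]
  set d := e.natDegree
  have h1 : Tendsto (fun τ => e.eval (jFun τ) * Δ τ ^ d) atImInfty (𝓝 0) := by
    have hb : (fun τ : ℍ => Δ τ ^ (d - k)) =O[atImInfty] fun _ => (1 : ℂ) :=
      ((FermatAgent.ModFun.isBounded_discriminant_pow (d - k)).congr_left fun τ => rfl).trans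
        (Asymptotics.isBigO_of_le _ fun τ => by simp)
    refine ((((Asymptotics.isBigO_refl (fun τ => e.eval (jFun τ) * Δ τ ^ k) atImInfty).mul
      hb)).trans_tendsto (by simpa using h)).congr fun τ => ?_
    rw [mul_assoc, ← pow_add, Nat.add_sub_cancel' (hl.trans hge)]
  have h2 := tendsto_finsetSum (Finset.range (d + 1)) fun i hi =>
    (tendsto_jFun_pow_mul (Finset.mem_range_succ_iff.mp hi)).const_mul (e.coeff i)
  rw [Finset.sum_eq_single d (fun i _ hi => by simp [hi])
    (fun hd => absurd (Finset.self_mem_range_succ d) hd), if_pos rfl, mul_one] at h2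
  refine tendsto_nhds_unique (h2.congr fun τ => ?_) h1
  rw [Polynomial.eval_eq_sum_range, Finset.sum_mul]
  exact Finset.sum_congr rfl fun i _ => by ring

/-- Coefficients of a product of linear factors. -/
theorem tendsto_coeff_prod {ι : Type*} (S : Finset ι) (r : ι → ℍ → ℂ) (s : ℍ → ℂ)
    (hr : ∀ c ∈ S, Tendsto (fun τ => r c τ * s τ) atImInfty (𝓝 0)) :
    ∀ i < S.card, Tendsto
      (fun τ => (∏ c ∈ S, (X - C (r c τ))).coeff i * s τ ^ (S.card - i)) atImInfty (𝓝 0) := by
  classical
  induction S using Finset.induction_on with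
  | empty => simp
  | @insert a S ha ih =>
    intro i hi
    rw [Finset.card_insert_of_notMem ha] at hi ⊢
    have hr' := fun c hc => hr c (Finset.mem_insert_of_mem hc)
    have htop : ∀ τ, (∏ c ∈ S, (X - C (r c τ))).coeff S.card = 1 := fun τ => by
      have hm : (∏ c ∈ S, (X - C (r c τ))).Monic :=
        monic_prod_of_monic _ _ fun c _ => monic_X_sub_C _
      have hd : (∏ c ∈ S, (X - C (r c τ))).natDegree = S.card := by
        rw [natDegree_prod _ _ fun c _ => X_sub_C_ne_zero _]; simp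
      simpa [hd] using hm.coeff_natDegree
    simp only [Finset.prod_insert ha, sub_mul, coeff_sub, coeff_C_mul]
    have hB : Tendsto (fun τ => r a τ * s τ *
        ((∏ c ∈ S, (X - C (r c τ))).coeff i * s τ ^ (S.card - i))) atImInfty (𝓝 0) := by
      rcases lt_or_eq_of_le (Nat.lt_succ_iff.mp hi) with h | h
      · simpa using (hr a (Finset.mem_insert_self _ _)).mul (ih hr' i h)
      · subst h
        simpa [htop] using hr a (Finset.mem_insert_self _ _)
    have hA : Tendsto (fun τ => (X * ∏ c ∈ S, (X - C (r c τ))).coeff i *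
        s τ ^ (S.card + 1 - i)) atImInfty (𝓝 0) := by
      cases i with
      | zero => simp
      | succ i =>
        simp only [coeff_X_mul, Nat.add_sub_add_right]
        exact ih hr' i (by omega)
    have := hA.sub hB
    rw [sub_zero] at this
    refine this.congr fun τ => ?_
    rw [show S.card + 1 - i = S.card - i + 1 by omega, pow_succ]
    ring

variable {Γ : Subgroup SL(2, ℤ)} [Fintype (SL(2, ℤ) ⧸ Γ)]

/-- The equation of an invariant function with bound `m` at the cusps. -/
theorem exists_equation_bound {m : ℕ} {y : ℍ → ℂ} (hy : y ∈ levelRingOf Γ)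
    (hm : CuspBound m y) :
    ∃ Φ : ℂ[X][X], Φ.Monic ∧ PolyBound m Φ ∧
      ∀ τ, (Φ.map (evalRingHom (jFun τ))).eval (y τ) = 0 := by
  classical
  obtain ⟨Φ, hΦm, hΦd, hΦ⟩ := exists_equationOf (⟨y, hy⟩ : levelRingOf Γ)
  refine ⟨Φ, hΦm, fun i hi l hl => coeff_eq_zero_of_tendsto ?_ hl, fun τ => ?_⟩
  · rw [hΦd, ← Finset.card_univ] at hi ⊢
    refine (tendsto_coeff_prod Finset.univ (fun c τ => conjOf y c τ) (fun τ => Δ τ ^ m)
      (fun c _ => hm _) i hi).congr fun τ => ?_
    rw [← pow_mul]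
    show _ = (evalRingHom (jFun τ)) (Φ.coeff i) * _
    rw [← coeff_map, hΦ τ]
  · rw [hΦ, eval_prod, Finset.prod_eq_zero (Finset.mem_univ ((1 : SL(2, ℤ)) : SL(2, ℤ) ⧸ Γ))]
    simp [conjOf_one hy]

/-- A root of a monic equation with the bound has the bound. -/
theorem cuspBound_of_polyBound {m : ℕ} {F : ℍ → ℂ} {Φ : ℂ[X][X]}
    (hb : PolyBound m Φ)
    (h : ∀ τ, F τ ^ Φ.natDegree +
      ∑ i ∈ Finset.range Φ.natDegree, (Φ.coeff i).eval (jFun τ) * F τ ^ i = 0) :
    CuspBound m F := by
  intro γ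
  set d := Φ.natDegree
  have heq : ∀ τ, (F (γ • τ) * Δ τ ^ m) ^ d + ∑ i ∈ Finset.range d,
      (Φ.coeff i).eval (jFun τ) * Δ τ ^ (m * (d - i)) * (F (γ • τ) * Δ τ ^ m) ^ i = 0 := by
    intro τ
    have h1 := congrArg (· * Δ τ ^ (m * d)) (h (γ • τ))
    simp only [FermatAgent.ModFun.jFun_smul, zero_mul, add_mul, Finset.sum_mul] at h1
    rw [← h1, mul_pow, ← pow_mul]
    congr 1
    refine Finset.sum_congr rfl fun i hi => ?_
    have hm' : m * d = m * (d - i) + m * i := by
      rw [← Nat.mul_add, Nat.sub_add_cancel (Finset.mem_range.mp hi).le]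
    rw [hm', pow_add, mul_pow, ← pow_mul]
    ring
  rw [IsZeroAtImInfty, ZeroAtFilter, Metric.tendsto_nhds]
  intro ε hε
  have hlim : Tendsto (fun τ => ∑ i ∈ Finset.range d,
      ‖(Φ.coeff i).eval (jFun τ) * Δ τ ^ (m * (d - i))‖ * (ε⁻¹) ^ (d - i)) atImInfty (𝓝 0) := by
    have := tendsto_finsetSum (Finset.range d) fun i hi =>
      ((tendsto_eval_jFun (hb i (Finset.mem_range.mp hi))).norm.mul_const ((ε⁻¹) ^ (d - i)))
    simpa using this
  filter_upwards [hlim.eventually (gt_mem_nhds one_pos)] with τ hτ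
  rw [dist_zero_right]
  by_contra hc
  push Not at hc
  set z := F (γ • τ) * Δ τ ^ m
  have hz : 0 < ‖z‖ := hε.trans_le hc
  have h2 : ‖z‖ ^ d ≤ (∑ i ∈ Finset.range d,
      ‖(Φ.coeff i).eval (jFun τ) * Δ τ ^ (m * (d - i))‖ * (ε⁻¹) ^ (d - i)) * ‖z‖ ^ d := by
    rw [Finset.sum_mul]
    conv_lhs => rw [← norm_pow, eq_neg_of_add_eq_zero_left (heq τ), norm_neg]
    refine (norm_sum_le _ _).trans (Finset.sum_le_sum fun i hi => ?_)
    rw [norm_mul, norm_pow, mul_assoc]
    refine mul_le_mul_of_nonneg_left ?_ (norm_nonneg _)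
    have hd' : d = d - i + i := (Nat.sub_add_cancel (Finset.mem_range.mp hi).le).symm
    conv_rhs => arg 2; rw [hd', pow_add]
    rw [← mul_assoc, ← mul_pow]
    exact le_mul_of_one_le_left (pow_nonneg hz.le _)
      (one_le_pow₀ (by rw [← div_eq_inv_mul, one_le_div hε]; exact hc))
  nlinarith [pow_pos hz d, hτ]

omit [Fintype (SL(2, ℤ) ⧸ Γ)] in
theorem isTame_of_cuspBound {m : ℕ} {F : ℍ → ℂ} (h : CuspBound m F) (γ : SL(2, ℤ)) :
    IsTame fun τ => F (γ • τ) :=
  FermatAgent.ModFun.isTame_iff.mpr ⟨m, (h γ).isBoundedAtImInfty⟩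

end FermatAgent.DeligneSerre.Conjugates
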