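import Fermat.Agent.DeligneSerre.X1.Field
import Fermat.Agent.DeligneSerre.Conjugates.HoloQuot
import Fermat.Agent.DeligneSerre.Conjugates.Poly

/-!
# Automorphisms of `ℂ` act on the invariant functions of level `M`

The conjugate series lies in the field; being a root of the conjugate equation, whose
coefficients are polynomials in `j`, it is the series of an invariant holomorphic function with
the same bound at the cusps.
-/

set_option autoImplicit false

noncomputable section

open UpperHalfPlane hiding I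
open Polynomial
open scoped MatrixGroups Manifold

namespace FermatAgent.DeligneSerre.Conjugates

open ModularCurve (coeffMap jqModC)
open FermatAgent.ModFun (cuspRing qLaurent qLaurentHom jFun jFun_mem_cuspRing)
open FermatAgent.DeligneSerre.X1 (levelRingOf levelRingOf_le_cuspRing gam T_mem_gam x1FieldC
  x1Gens bEvalOf bEvalOf_monomial)

variable {M : ℕ} [NeZero M]

/-- `P ↦ P(j, u)` in the ring of functions meromorphic at `i∞`. -/
def evalCusp (u : cuspRing) : ℂ[X][X] →+* cuspRing :=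
  eval₂RingHom
    (aeval (⟨jFun, jFun_mem_cuspRing⟩ : cuspRing) : ℂ[X] →ₐ[ℂ] cuspRing).toRingHom u

theorem coe_evalCusp (u : cuspRing) (P : ℂ[X][X]) (τ : ℍ) :
    (evalCusp u P : ℍ → ℂ) τ = (P.map (evalRingHom (jFun τ))).eval ((u : ℍ → ℂ) τ) := by
  induction P using Polynomial.induction_on' with
  | add p q hp hq => simp [map_add, hp, hq]
  | monomial i a =>
    rw [evalCusp, coe_eval₂RingHom, eval₂_monomial, Polynomial.map_monomial, eval_monomial]
    show ((aeval (⟨jFun, jFun_mem_cuspRing⟩ : cuspRing) a : cuspRing) : ℍ → ℂ) τ *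
        ((u : ℍ → ℂ) τ) ^ i = _
    congr 1
    induction a using Polynomial.induction_on' with
    | add p q hp hq => simp only [map_add, ← hp, ← hq]; rfl
    | monomial n c => simp

theorem qLaurent_evalCusp (u : cuspRing) (P : ℂ[X][X]) :
    qLaurentHom (evalCusp u P) = bEvalOf ℂ (qLaurentHom u) P := by
  induction P using Polynomial.induction_on' with
  | add p q hp hq => rw [map_add, map_add, map_add, hp, hq]
  | monomial i a =>
    rw [bEvalOf_monomial, evalCusp, coe_eval₂RingHom, eval₂_monomial, map_mul, map_pow]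
    congr 1
    show qLaurentHom (aeval _ a) = _
    rw [← aeval_algHom_apply]
    congr 2
    exact FermatAgent.ModFun.qLaurent_jFun

theorem bEvalOf_monic {K : Type*} [Field K] (y : LaurentSeries K) {Φ : K[X][X]} (hΦ : Φ.Monic) :
    bEvalOf K y Φ = y ^ Φ.natDegree +
      ∑ i ∈ Finset.range Φ.natDegree, aeval (jqModC K) (Φ.coeff i) * y ^ i := by
  conv_lhs => rw [hΦ.as_sum]
  rw [map_add, map_sum]
  congr 1
  · rw [X_pow_eq_monomial, bEvalOf_monomial, map_one, one_mul]
  · refine Finset.sum_congr rfl fun i _ => ?_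
    rw [C_mul_X_pow_eq_monomial, bEvalOf_monomial]

/-- Conjugation of an invariant function, preserving the bound at the cusps. -/
theorem exists_conjFun (hM : 5 ≤ M) (σ : ℂ ≃+* ℂ) {m : ℕ} {y : ℍ → ℂ}
    (hy : y ∈ levelRingOf (gam M)) (hb : CuspBound m y) :
    ∃ F : ℍ → ℂ, F ∈ levelRingOf (gam M) ∧ CuspBound m F ∧
      qLaurent F = coeffMap σ.toRingHom (qLaurent y) := by
  obtain ⟨Φ, hΦm, hΦb, hΦ⟩ := exists_equation_bound hy hb
  set s : LaurentSeries ℂ := coeffMap σ.toRingHom (qLaurent y) with hs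
  set Ψ : ℂ[X][X] := Φ.map (mapRingHom σ.toRingHom) with hΨ
  have hΨm : Ψ.Monic := hΦm.map _
  have hΨd : Ψ.natDegree = Φ.natDegree := hΦm.natDegree_map _
  have hΨb : PolyBound m Ψ := fun i hi l hl => by
    rw [hΨd] at hi hl
    rw [hΨ, coeff_map, coe_mapRingHom, coeff_map, hΦb i hi l hl, map_zero]
  have hs0 : bEvalOf ℂ s Ψ = 0 := by
    rw [hs, hΨ, ← X1.coeffMap_bEvalOf]
    have h0 : evalCusp ⟨y, levelRingOf_le_cuspRing (T_mem_gam M) hy⟩ Φ = 0 :=
      Subtype.ext (funext fun τ => (coe_evalCusp _ _ τ).trans (hΦ τ))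
    have := qLaurent_evalCusp ⟨y, levelRingOf_le_cuspRing (T_mem_gam M) hy⟩ Φ
    rw [h0, map_zero] at this
    rw [show qLaurent y = qLaurentHom ⟨y, levelRingOf_le_cuspRing (T_mem_gam M) hy⟩ from rfl,
      ← this, map_zero]
  have hsmem : s ∈ x1FieldC ℂ M :=
    X1.coeffMap_mem_of_mem _ (X1.qLaurent_mem_x1FieldC hM hy)
  obtain ⟨a, b, hb0, hab⟩ := X1.exists_toX1_div hM ⟨s, hsmem⟩
  let aW : cuspRing := ⟨a, levelRingOf_le_cuspRing (T_mem_gam M) a.2⟩
  let bW : cuspRing := ⟨b, levelRingOf_le_cuspRing (T_mem_gam M) b.2⟩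
  let jW : cuspRing := ⟨jFun, jFun_mem_cuspRing⟩
  have hb1 : qLaurentHom bW ≠ 0 := fun h => hb0 (Subtype.ext h)
  have habs : qLaurentHom aW = s * qLaurentHom bW := by
    have := congrArg (Subtype.val : x1FieldC ℂ M → LaurentSeries ℂ) hab
    rw [show ((X1.toX1 hM a / X1.toX1 hM b : x1FieldC ℂ M) : LaurentSeries ℂ) =
      qLaurentHom aW / qLaurentHom bW from rfl] at this
    exact ((eq_div_iff hb1).mp this).symm
  set n := Ψ.natDegree
  have hE : aW ^ n + ∑ i ∈ Finset.range n, aeval jW (Ψ.coeff i) * aW ^ i * bW ^ (n - i) = 0 := by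
    refine FermatAgent.ModFun.qLaurentHom_injective ?_
    rw [map_zero, map_add, map_sum, map_pow, habs]
    have : (s * qLaurentHom bW) ^ n + ∑ i ∈ Finset.range n, qLaurentHom
        (aeval jW (Ψ.coeff i) * aW ^ i * bW ^ (n - i)) =
        bEvalOf ℂ s Ψ * qLaurentHom bW ^ n := by
      rw [bEvalOf_monic _ hΨm, add_mul, Finset.sum_mul, mul_pow]
      congr 1
      refine Finset.sum_congr rfl fun i hi => ?_
      have hd : qLaurentHom bW ^ n = qLaurentHom bW ^ i * qLaurentHom bW ^ (n - i) := by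
        rw [← pow_add, Nat.add_sub_cancel' (Finset.mem_range.mp hi).le]
      rw [map_mul, map_mul, map_pow, map_pow, habs, hd, mul_pow, ← aeval_algHom_apply,
        show qLaurentHom jW = jqModC ℂ from FermatAgent.ModFun.qLaurent_jFun]
      ring
    rw [this, hs0, zero_mul]
  have hval : ∀ (p : ℂ[X]) (τ : ℍ), ((aeval jW p : cuspRing) : ℍ → ℂ) τ = p.eval (jFun τ) := by
    intro p τ
    induction p using Polynomial.induction_on' with
    | add p q hp hq => simp [map_add, hp, hq]
    | monomial n c => simp [jW]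
  have hpt : ∀ τ, (a : ℍ → ℂ) τ ^ n + ∑ i ∈ Finset.range n,
      (Ψ.coeff i).eval (jFun τ) * (a : ℍ → ℂ) τ ^ i * (b : ℍ → ℂ) τ ^ (n - i) = 0 := fun τ => by
    have := congrFun (congrArg Subtype.val hE) τ
    simpa [aW, bW, Finset.sum_apply, hval] using this
  have hbne : (b : ℍ → ℂ) ≠ 0 := fun h => hb1 (by
    rw [show bW = 0 from Subtype.ext h, map_zero])
  have hej : ∀ p : ℂ[X], MDiff fun τ => p.eval (jFun τ) := fun p => by
    have := (aeval jW p : cuspRing).2.1
    rwa [show ((aeval jW p : cuspRing) : ℍ → ℂ) = fun τ => p.eval (jFun τ) from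
      funext (hval p)] at this
  obtain ⟨F, hFd, haF, hFeq⟩ := exists_holo_quot a.2.1 b.2.1 hbne
    (e := fun i τ => (Ψ.coeff i).eval (jFun τ)) (fun i _ => hej _) hpt
  have hFb : CuspBound m F := cuspBound_of_polyBound hΨb hFeq
  have hFinv : ∀ γ ∈ gam M, ∀ τ : ℍ, F (γ • τ) = F τ := fun γ hγ τ => by
    have h1 : (b : ℍ → ℂ) * (fun τ => F (γ • τ) - F τ) = 0 := funext fun σ => by
      have e1 := congrFun haF (γ • σ)
      have e2 := congrFun haF σ
      rw [Pi.mul_apply] at e1 e2
      rw [a.2.2.1 γ hγ, b.2.2.1 γ hγ, e2] at e1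
      simp only [Pi.mul_apply, Pi.zero_apply, mul_sub, e1, sub_self]
    have := ((UpperHalfPlane.mul_eq_zero_iff b.2.1
      ((FermatAgent.ModFun.mdiff_comp_smul hFd γ).sub hFd)).mp h1).resolve_left hbne
    exact sub_eq_zero.mp (congrFun this τ)
  have hFmem : F ∈ levelRingOf (gam M) := ⟨hFd, hFinv, isTame_of_cuspBound hFb⟩
  refine ⟨F, hFmem, hFb, mul_left_cancel₀ hb1 ?_⟩
  rw [mul_comm _ s, ← habs,
    show qLaurent F = qLaurentHom ⟨F, levelRingOf_le_cuspRing (T_mem_gam M) hFmem⟩ from rfl,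
    ← map_mul]
  exact congrArg _ (Subtype.ext haF.symm)

end FermatAgent.DeligneSerre.Conjugates
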