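import Mathlib.NumberTheory.ModularForms.CongruenceSubgroups
import Mathlib.Tactic.LinearCombination
import Fermat.Agent.TWLocal.Lift

/-!
# `Γ₁(N)` is generated by `Γ₁(5 N)` and `Γ₁(7 N)`
-/

set_option autoImplicit false

open CongruenceSubgroup
open scoped MatrixGroups

namespace FermatAgent.DeligneSerre.Conjugates

theorem gamma1_mono {M N : ℕ} (h : N ∣ M) : Gamma1 M ≤ Gamma1 N := fun γ hγ => by
  obtain ⟨h1, h2, h3⟩ := (Gamma1_mem M γ).mp hγ
  refine (Gamma1_mem N γ).mpr ⟨?_, ?_, ?_⟩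
  · have := congrArg (ZMod.castHom h (ZMod N)) h1
    simpa only [map_intCast, map_one, map_zero] using this
  · have := congrArg (ZMod.castHom h (ZMod N)) h2
    simpa only [map_intCast, map_one, map_zero] using this
  · have := congrArg (ZMod.castHom h (ZMod N)) h3
    simpa only [map_intCast, map_one, map_zero] using this

theorem Gamma_le_gamma1 (N : ℕ) : Gamma N ≤ Gamma1 N := fun γ hγ => by
  obtain ⟨h1, -, h3, h4⟩ := Gamma_mem.mp hγ
  exact (Gamma1_mem N γ).mpr ⟨h1, h4, h3⟩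

theorem T_mem_gamma1 (N : ℕ) : ModularGroup.T ∈ Gamma1 N :=
  (Gamma1_mem N _).mpr (by simp [ModularGroup.coe_T])

/-- `Γ(N) = Γ(5 N) Γ(7 N)`. -/
theorem exists_split_Gamma (N : ℕ) [NeZero N] {A : SL(2, ℤ)} (hA : A ∈ Gamma N) :
    ∃ X ∈ Gamma (5 * N), ∃ Y ∈ Gamma (7 * N), A = X * Y := by
  obtain ⟨h1, h2, h3, h4⟩ := Gamma_mem.mp hA
  rw [← Int.cast_one (R := ZMod N), ZMod.intCast_eq_intCast_iff_dvd_sub] at h1 h4
  rw [ZMod.intCast_zmod_eq_zero_iff_dvd] at h2 h3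
  obtain ⟨p, hp⟩ := h1
  obtain ⟨q, hq⟩ := h2
  obtain ⟨r, hr⟩ := h3
  obtain ⟨s, hs⟩ := h4
  have hdet := A.det_coe
  rw [Matrix.det_fin_two] at hdet
  let B : Matrix (Fin 2) (Fin 2) ℤ :=
    !![1 + 15 * (A 0 0 - 1), 15 * A 0 1; 15 * A 1 0, 1 + 15 * (A 1 1 - 1)]
  have hB : B.det = 1 + ((35 * N : ℕ) : ℤ) * (6 * (p + s)) := by
    simp only [B, Matrix.det_fin_two_of]
    push_cast
    linear_combination 225 * hdet + 210 * hp + 210 * hs
  have : NeZero (35 * N) := ⟨by have := NeZero.ne N; omega⟩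
  obtain ⟨X, hX⟩ := FermatAgent.TWLocal.redSL_surjective (35 * N)
    ⟨B.map (Int.castRingHom (ZMod (35 * N))), by
      rw [← RingHom.mapMatrix_apply, ← RingHom.map_det, hB, map_add, map_one, map_mul, eq_intCast,
        Int.cast_natCast, ZMod.natCast_self, zero_mul, add_zero]⟩
  have hXB : ∀ i j, ((35 * N : ℕ) : ℤ) ∣ B i j - X i j := fun i j => by
    rw [← ZMod.intCast_eq_intCast_iff_dvd_sub]
    simpa using congrFun (congrFun (congrArg Subtype.val hX) i) j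
  obtain ⟨k00, e00⟩ := hXB 0 0
  obtain ⟨k01, e01⟩ := hXB 0 1
  obtain ⟨k10, e10⟩ := hXB 1 0
  obtain ⟨k11, e11⟩ := hXB 1 1
  simp only [B, Matrix.of_apply, Matrix.cons_val', Matrix.cons_val_zero, Matrix.cons_val_one,
    Matrix.empty_val', Matrix.cons_val_fin_one] at e00 e01 e10 e11
  push_cast at e00 e01 e10 e11
  refine ⟨X, ?_, X⁻¹ * A, ?_, by simp⟩
  · rw [Gamma_mem, ← Int.cast_one (R := ZMod (5 * N))]
    simp only [ZMod.intCast_eq_intCast_iff_dvd_sub, ZMod.intCast_zmod_eq_zero_iff_dvd]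
    push_cast
    exact ⟨⟨3 * p + 7 * k00, by linear_combination e00 + 15 * hp⟩,
      ⟨3 * q - 7 * k01, by linear_combination -e01 + 15 * hq⟩,
      ⟨3 * r - 7 * k10, by linear_combination -e10 + 15 * hr⟩,
      ⟨3 * s + 7 * k11, by linear_combination e11 + 15 * hs⟩⟩
  · rw [Gamma_mem', map_mul, map_inv, inv_mul_eq_one]
    refine Matrix.SpecialLinearGroup.ext _ _ fun i j => ?_
    simp only [Matrix.SpecialLinearGroup.map_apply_coe, RingHom.mapMatrix_apply, Matrix.map_apply,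
      eq_intCast, ZMod.intCast_eq_intCast_iff_dvd_sub]
    push_cast
    fin_cases i <;> fin_cases j <;> simp
    · exact ⟨2 * p + 5 * k00, by linear_combination e00 + 14 * hp⟩
    · exact ⟨-2 * q + 5 * k01, by linear_combination e01 - 14 * hq⟩
    · exact ⟨-2 * r + 5 * k10, by linear_combination e10 - 14 * hr⟩
    · exact ⟨2 * s + 5 * k11, by linear_combination e11 + 14 * hs⟩

/-- Every element of `Γ₁(N)` is `X Y T ^ k` with `X ∈ Γ₁(5 N)`, `Y ∈ Γ₁(7 N)`. -/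
theorem exists_split_gamma1 (N : ℕ) [NeZero N] {γ : SL(2, ℤ)} (hγ : γ ∈ Gamma1 N) :
    ∃ X ∈ Gamma1 (5 * N), ∃ Y ∈ Gamma1 (7 * N), γ = X * Y := by
  obtain ⟨h00, h11, h10⟩ := (Gamma1_mem N γ).mp hγ
  have hA : γ * ModularGroup.T ^ (-(γ 0 1)) ∈ Gamma N := by
    rw [Gamma_mem]
    simp [Matrix.SpecialLinearGroup.coe_mul, Matrix.mul_apply, Fin.sum_univ_two,
      ModularGroup.coe_T_zpow, h00, h11, h10]
  obtain ⟨X, hX, Y, hY, hXY⟩ := exists_split_Gamma N hA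
  refine ⟨X, Gamma_le_gamma1 _ hX, Y * ModularGroup.T ^ γ 0 1,
    mul_mem (Gamma_le_gamma1 _ hY) (zpow_mem (T_mem_gamma1 _) _), ?_⟩
  rw [← mul_assoc, ← hXY, mul_assoc, ← zpow_add, neg_add_cancel, zpow_zero, mul_one]

end FermatAgent.DeligneSerre.Conjugates
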