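import Fermat.Agent.DeligneSerre.WeightOne.Expansion
import Fermat.Agent.DeligneSerre.Conjugates.Anchor
import Fermat.Agent.DeligneSerre.Conjugates.Generation
import Fermat.Agent.DeligneSerre.Conjugates.Poly
import Fermat.Agent.Igusa.Generators

/-!
# Series of weight one forms and of their products with powers of the anchor
-/

set_option autoImplicit false
set_option linter.unusedSectionVars false

noncomputable section

open UpperHalfPlane hiding I
open Filter CongruenceSubgroup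
open scoped Topology MatrixGroups Manifold ModularForm

namespace FermatAgent.DeligneSerre.Conjugates

open ModularCurve (coeffMap coeffMap_ofPowerSeries)
open FermatAgent.ModFun (cuspRing qLaurent qLaurentHom toLS)
open FermatAgent.ModCurve.Forms (IsMF IsCF)
open FermatAgent.DeligneSerre.WeightOne (HasCoeff hasCoeff_of_isMF mem_cuspRing_of_isMF)
open FermatAgent.DeligneSerre.X1 (levelRingOf gam)
open FermatAgent.Igusa (invDelta invDelta_mem_cuspRing)

local notation "Δ" => ModularForm.discriminant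

theorem coeffMap_toLS_intCast {R S : Type*} [CommRing R] [CommRing S] (σ : R →+* S)
    (p : PowerSeries ℤ) :
    coeffMap σ (HahnSeries.ofPowerSeries ℤ R (p.map (Int.castRingHom R))) =
      HahnSeries.ofPowerSeries ℤ S (p.map (Int.castRingHom S)) := by
  rw [coeffMap_ofPowerSeries, ← RingHom.comp_apply (PowerSeries.map σ), ← PowerSeries.map_comp,
    RingHom.ext_int (σ.comp (Int.castRingHom R)) (Int.castRingHom S)]

theorem qLaurent_of_hasCoeff {f : ℍ → ℂ} {c : ℕ → ℂ} (h : HasCoeff f c) :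
    qLaurent f = toLS (PowerSeries.mk c) := by
  rw [FermatAgent.ModFun.qLaurent_of_bounded (FermatAgent.Igusa.mem_cuspRing_of_hasSum h).1
    h.isBoundedAtImInfty, h.qExpansion_eq]

theorem qLaurent_of_intSeries {f : ℍ → ℂ} {p : PowerSeries ℤ}
    (h : HasCoeff f fun n => (p.coeff n : ℂ)) :
    qLaurent f = toLS (p.map (Int.castRingHom ℂ)) := by
  rw [qLaurent_of_hasCoeff h]
  congr 1
  ext n
  simp

theorem isMF_mono {Γ Γ' : Subgroup SL(2, ℤ)} (h : Γ' ≤ Γ) {k : ℤ} {f : ℍ → ℂ} (hf : IsMF Γ k f) :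
    IsMF Γ' k f :=
  ⟨hf.holo, fun γ hγ => hf.inv γ (h hγ), hf.bdd⟩

theorem isMF_pow {Γ : Subgroup SL(2, ℤ)} {k : ℤ} {f : ℍ → ℂ} (hf : IsMF Γ k f) (n : ℕ) :
    IsMF Γ (n * k) (f ^ n) := by
  induction n with
  | zero => exact (IsMF.const (Γ := Γ) 1).cast (by simp) (by funext τ; simp)
  | succ n ih => exact (ih.mul hf).cast (by push_cast; ring) (by rw [pow_succ])

/-- A product with a form vanishing at the cusps vanishes at the cusps. -/
theorem isZeroAtImInfty_mul_slash {Γ : Subgroup SL(2, ℤ)} {k l : ℤ} {f g : ℍ → ℂ}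
    (hf : ∀ γ : SL(2, ℤ), IsZeroAtImInfty (f ∣[k] γ)) (hg : IsMF Γ l g) (γ : SL(2, ℤ)) :
    IsZeroAtImInfty ((f * g) ∣[k + l] γ) := by
  rw [ModularForm.mul_slash_SL2]
  have hg' : (g ∣[l] γ) =O[atImInfty] fun _ => (1 : ℂ) :=
    (hg.bdd γ).trans (Asymptotics.isBigO_of_le _ fun τ => by simp)
  exact ((Asymptotics.isBigO_refl (f ∣[k] γ) atImInfty).mul hg').trans_tendsto
    (by simpa [IsZeroAtImInfty, ZeroAtFilter] using hf γ)

theorem gamma1_or_neg_of_mem_gam {M : ℕ} {γ : SL(2, ℤ)} (hγ : γ ∈ gam M) :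
    γ ∈ Gamma1 M ∨ -γ ∈ Gamma1 M := by
  obtain ⟨h0, h11⟩ := hγ
  have hd := X1.cast_det_gamma0 h0
  have h10 := Gamma0_mem.mp h0
  rcases h11 with h | h <;> rw [h] at hd
  · exact Or.inl ((Gamma1_mem M γ).mpr ⟨by simpa using hd, h, h10⟩)
  · refine Or.inr ((Gamma1_mem M (-γ)).mpr ⟨?_, ?_, ?_⟩) <;> simp [h, h10]
    simpa using hd

/-- A weight twelve cusp form over `Δ` is an invariant function with bound one at the cusps. -/
theorem mul_invDelta_mem {M : ℕ} [NeZero M] {Q : ℍ → ℂ} (hQ : IsMF (Gamma1 M) 12 Q)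
    (hz : ∀ γ : SL(2, ℤ), IsZeroAtImInfty (Q ∣[(12 : ℤ)] γ)) :
    Q * invDelta ∈ levelRingOf (gam M) ∧ CuspBound 1 (Q * invDelta) := by
  have key : ∀ (γ : SL(2, ℤ)) (τ : ℍ),
      (Q * invDelta) (γ • τ) = (Q ∣[(12 : ℤ)] γ) τ * (Δ τ)⁻¹ := by
    intro γ τ
    rw [Pi.mul_apply, invDelta, FermatAgent.ModFun.discriminant_smul, ModularForm.SL_slash_apply,
      mul_inv, zpow_neg]
    ring
  have hb : CuspBound 1 (Q * invDelta) := fun γ => by
    refine (hz γ).congr fun τ => ?_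
    rw [key, pow_one, inv_mul_cancel_right₀ (ModularForm.discriminant_ne_zero τ)]
  have hinv : ∀ γ ∈ Gamma1 M, ∀ τ, (Q * invDelta) (γ • τ) = (Q * invDelta) τ := fun γ hγ τ => by
    rw [key, hQ.inv γ hγ]
    rfl
  refine ⟨⟨(mul_mem (mem_cuspRing_of_isMF (T_mem_gamma1 M) hQ) invDelta_mem_cuspRing).1,
    fun γ hγ τ => ?_, isTame_of_cuspBound hb⟩, hb⟩
  rcases gamma1_or_neg_of_mem_gam hγ with h | h
  · exact hinv γ h τ
  · have e : γ • τ = (-γ) • τ := by
      rw [← neg_one_mul γ, mul_smul]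
      simp
    rw [e]
    exact hinv _ h τ

variable {N L : ℕ} [NeZero N] [NeZero L]

/-- The anchor in the ring of functions meromorphic at `i∞`. -/
def anchorW (hL : L.Prime) (h5 : 5 ≤ L) : cuspRing :=
  ⟨anchor L, mem_cuspRing_of_isMF (T_mem_gamma1 L) (isMF_anchor hL h5)⟩

/-- `Δ` in the ring of functions meromorphic at `i∞`. -/
def deltaW : cuspRing := ⟨Δ, FermatAgent.ModFun.discriminant_mem_cuspRing⟩

/-- `1 / Δ` in the ring of functions meromorphic at `i∞`. -/
def invDeltaW : cuspRing := ⟨invDelta, invDelta_mem_cuspRing⟩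

theorem invDeltaW_mul_deltaW : invDeltaW * deltaW = 1 :=
  Subtype.ext (funext fun τ => by
    simp [invDeltaW, deltaW, invDelta, inv_mul_cancel₀ (ModularForm.discriminant_ne_zero τ)])

theorem coeffMap_qLaurentHom_invDeltaW (σ : ℂ →+* ℂ) :
    coeffMap σ (qLaurentHom invDeltaW) = qLaurentHom invDeltaW := by
  show coeffMap σ (qLaurent invDelta) = qLaurent invDelta
  rw [FermatAgent.Igusa.qLaurent_invDelta, FermatAgent.Igusa.coeffMap_invDeltaModC]

theorem qLaurentHom_anchorW_mul (hL : L.Prime) (h5 : 5 ≤ L) :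
    qLaurentHom (anchorW hL h5) * toLS ((anchorDen L).map (Int.castRingHom ℂ)) =
        toLS ((anchorNum L).map (Int.castRingHom ℂ)) ∧
      toLS ((anchorDen L).map (Int.castRingHom ℂ)) ≠ 0 := by
  have hnum := hasCoeff_anchor_num hL
  have hden := hasCoeff_anchor_den hL h5
  let d : cuspRing := ⟨_, (FermatAgent.Igusa.mem_cuspRing_of_hasSum hden).1⟩
  let e : cuspRing := ⟨_, (FermatAgent.Igusa.mem_cuspRing_of_hasSum hnum).1⟩
  have h : anchorW hL h5 * d = e := Subtype.ext (anchor_mul_den hL h5)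
  rw [← qLaurent_of_intSeries hnum, ← qLaurent_of_intSeries hden,
    show qLaurent _ = qLaurentHom d from rfl]
  refine ⟨by rw [← map_mul, h]; rfl, fun h0 => ?_⟩
  have he : qLaurentHom e = 0 := by rw [← h, map_mul, h0, mul_zero]
  rw [show qLaurentHom e = _ from qLaurent_of_intSeries hnum,
    map_eq_zero_iff _ HahnSeries.ofPowerSeries_injective] at he
  exact anchorNum_ne_zero h5
    (PowerSeries.map_injective _ Int.cast_injective (he.trans (map_zero _).symm))

theorem coeffMap_qLaurentHom_anchorW (σ : ℂ →+* ℂ) (hL : L.Prime) (h5 : 5 ≤ L) :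
    coeffMap σ (qLaurentHom (anchorW hL h5)) = qLaurentHom (anchorW hL h5) := by
  obtain ⟨h, h0⟩ := qLaurentHom_anchorW_mul hL h5
  refine mul_right_cancel₀ h0 ?_
  rw [h]
  conv_lhs => rw [← coeffMap_toLS_intCast σ (anchorDen L), ← map_mul, h]
  exact coeffMap_toLS_intCast σ _

theorem qLaurentHom_anchorW_ne_zero (hL : L.Prime) (h5 : 5 ≤ L) :
    qLaurentHom (anchorW hL h5) ≠ 0 := fun h =>
  anchor_ne_zero hL h5 (congrArg Subtype.val
    (FermatAgent.ModFun.qLaurentHom_injective (h.trans (map_zero _).symm)))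

variable {f : ℍ → ℂ} (hf : IsCF (Gamma1 N) 1 f)

/-- A form in the ring of functions meromorphic at `i∞`. -/
def formW : cuspRing := ⟨f, mem_cuspRing_of_isMF (T_mem_gamma1 N) hf.toIsMF⟩

include hf in
theorem isMF_mul_anchor (hL : L.Prime) (h5 : 5 ≤ L) :
    IsMF (Gamma1 (L * N)) 12 (f * anchor L ^ 11) ∧
      ∀ γ : SL(2, ℤ), IsZeroAtImInfty ((f * anchor L ^ 11) ∣[(12 : ℤ)] γ) := by
  have ha := isMF_pow (isMF_mono (gamma1_mono (dvd_mul_right L N)) (isMF_anchor hL h5)) 11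
  have h1 := isMF_mono (gamma1_mono (dvd_mul_left N L)) hf.toIsMF
  exact ⟨(h1.mul ha).cast (by norm_num) rfl, fun γ => by
    simpa using isZeroAtImInfty_mul_slash hf.zero ha γ⟩

include hf in
theorem isMF_pow_twelve :
    IsMF (Gamma1 (L * N)) 12 (f ^ 12) ∧
      ∀ γ : SL(2, ℤ), IsZeroAtImInfty ((f ^ 12) ∣[(12 : ℤ)] γ) := by
  have h1 := isMF_mono (gamma1_mono (dvd_mul_left N L)) hf.toIsMF
  have h11 := isMF_pow h1 11
  refine ⟨(h1.mul h11).cast (by norm_num) (by rw [← pow_succ']), fun γ => ?_⟩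
  rw [pow_succ' f 11]
  simpa using isZeroAtImInfty_mul_slash hf.zero h11 γ

omit [NeZero L] in
theorem five_le_mul (h5 : 5 ≤ L) : 5 ≤ L * N :=
  h5.trans (Nat.le_mul_of_pos_right L (NeZero.pos N))

end FermatAgent.DeligneSerre.Conjugates
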