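import Fermat.Agent.DeligneSerre.Conjugates.Structure
import Fermat.Agent.DeligneSerre.Conjugates.Level
import Fermat.Agent.DeligneSerre.Conjugates.Series

/-!
# Automorphisms of `ℂ` act on weight one cusp forms

For a prime `L ≥ 5` the conjugates of `f h ^ 11 / Δ` and of `f ^ 12 / Δ`, `h` the anchor of level
`L`, determine a cusp form on `Γ₁(L N)` with conjugate expansion; `L = 5, 7` give level `N`.
-/

set_option autoImplicit false

noncomputable section

open UpperHalfPlane hiding I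
open Filter CongruenceSubgroup
open scoped Topology MatrixGroups Manifold ModularForm

namespace FermatAgent.DeligneSerre.Conjugates

open ModularCurve (coeffMap coeffMap_ofPowerSeries)
open FermatAgent.ModFun (cuspRing qLaurent qLaurentHom qLaurentHom_injective toLS)
open FermatAgent.ModCurve.Forms (IsMF IsCF isCF_coe)
open FermatAgent.DeligneSerre.X1 (levelRingOf levelRingOf_le_cuspRing gam T_mem_gam)

local notation "Δ" => ModularForm.discriminant

variable {N : ℕ} [NeZero N]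

theorem exists_conj_level {L : ℕ} [NeZero L] (hL : L.Prime) (h5 : 5 ≤ L) (σ : ℂ ≃+* ℂ)
    {f : ℍ → ℂ} (hf : IsCF (Gamma1 N) 1 f) :
    ∃ F : ℍ → ℂ, IsCF (Gamma1 (L * N)) 1 F ∧
      qLaurent F = coeffMap σ.toRingHom (qLaurent f) := by
  have hM := five_le_mul (N := N) h5
  obtain ⟨hy, hyb⟩ := mul_invDelta_mem (isMF_mul_anchor hf hL h5).1 (isMF_mul_anchor hf hL h5).2
  obtain ⟨hy2, hyb2⟩ := mul_invDelta_mem (isMF_pow_twelve (L := L) hf).1
    (isMF_pow_twelve (L := L) hf).2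
  obtain ⟨F1, hF1, -, hs1⟩ := exists_conjFun hM σ hy hyb
  obtain ⟨F2, hF2, hb2, hs2⟩ := exists_conjFun hM σ hy2 hyb2
  let F1W : cuspRing := ⟨F1, levelRingOf_le_cuspRing (T_mem_gam _) hF1⟩
  let F2W : cuspRing := ⟨F2, levelRingOf_le_cuspRing (T_mem_gam _) hF2⟩
  let GW : cuspRing := F1W * deltaW
  let G2W : cuspRing := F2W * deltaW
  set hW := anchorW hL h5 with hhW
  set s := coeffMap σ.toRingHom (qLaurentHom (formW hf)) with hs
  have hcancel : qLaurentHom invDeltaW * qLaurentHom deltaW = 1 := by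
    rw [← map_mul, invDeltaW_mul_deltaW, map_one]
  have hG : qLaurentHom GW = s * qLaurentHom hW ^ 11 := by
    have h1 : qLaurentHom F1W =
        coeffMap σ.toRingHom (qLaurentHom (formW hf * hW ^ 11 * invDeltaW)) := hs1
    rw [map_mul, h1, map_mul, map_mul, map_mul, map_mul, map_pow, map_pow,
      coeffMap_qLaurentHom_invDeltaW, hhW, coeffMap_qLaurentHom_anchorW, mul_assoc, hcancel,
      mul_one]
  have hG2 : qLaurentHom G2W = s ^ 12 := by
    have h1 : qLaurentHom F2W =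
        coeffMap σ.toRingHom (qLaurentHom (formW hf ^ 12 * invDeltaW)) := hs2
    rw [map_mul, h1, map_mul, map_mul, map_pow, map_pow, coeffMap_qLaurentHom_invDeltaW,
      mul_assoc, hcancel, mul_one]
  have hkey : GW ^ 12 = (hW ^ 11) ^ 12 * G2W := qLaurentHom_injective (by
    rw [map_pow qLaurentHom GW 12, hG, map_mul qLaurentHom _ G2W, hG2, map_pow, map_pow]
    ring)
  have hb0 : ((hW ^ 11 : cuspRing) : ℍ → ℂ) ≠ 0 := fun h =>
    pow_ne_zero 11 (qLaurentHom_anchorW_ne_zero hL h5) (by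
      rw [← map_pow, ← hhW, show hW ^ 11 = 0 from Subtype.ext h, map_zero])
  obtain ⟨F, hFd, haF, hFeq⟩ := exists_holo_quot GW.2.1 (hW ^ 11).2.1 hb0 (d := 12)
    (e := fun i τ => if i = 0 then -(G2W : ℍ → ℂ) τ else 0)
    (fun i _ => by
      by_cases hi : i = 0
      · simpa [hi] using! G2W.2.1.neg
      · simpa [hi] using! mdifferentiable_const)
    (fun τ => by
      rw [Finset.sum_eq_single 0 (fun i _ hi => by simp [hi]) (by simp), if_pos rfl]
      have := congrFun (congrArg Subtype.val hkey) τ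
      simp only [SubmonoidClass.coe_pow, MulMemClass.coe_mul, Pi.pow_apply, Pi.mul_apply] at this ⊢
      rw [this]
      ring)
  have hF12 : ∀ τ, F τ ^ 12 = F2 τ * Δ τ := fun τ => by
    have := hFeq τ
    rw [Finset.sum_eq_single 0 (fun i _ hi => by simp [hi]) (by simp), if_pos rfl] at this
    simpa [G2W, F2W, deltaW, add_neg_eq_zero] using this
  have hzero : ∀ γ : SL(2, ℤ), IsZeroAtImInfty (F ∣[(1 : ℤ)] γ) := fun γ => by
    have h12 : ∀ τ, (F ∣[(1 : ℤ)] γ) τ ^ 12 = F2 (γ • τ) * Δ τ ^ 1 := fun τ => by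
      have hd : denom (γ : GL (Fin 2) ℝ) τ ≠ 0 := denom_ne_zero _ _
      rw [ModularForm.SL_slash_apply, mul_pow, hF12, FermatAgent.ModFun.discriminant_smul,
        zpow_neg_one, pow_one, inv_pow, zpow_ofNat]
      field_simp
    rw [IsZeroAtImInfty, ZeroAtFilter, Metric.tendsto_nhds]
    intro ε hε
    filter_upwards [(Metric.tendsto_nhds.mp (hb2 γ)) (ε ^ 12) (pow_pos hε 12)] with τ hτ
    rw [dist_zero_right] at hτ ⊢
    rw [← h12, norm_pow] at hτ
    exact lt_of_pow_lt_pow_left₀ 12 hε.le hτ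
  have hinv : ∀ γ ∈ Gamma1 (L * N), F ∣[(1 : ℤ)] γ = F := by
    intro γ hγ
    have hh := (isMF_mono (gamma1_mono (dvd_mul_right L N)) (isMF_anchor hL h5)).inv γ hγ
    refine sub_eq_zero.mp (((UpperHalfPlane.mul_eq_zero_iff (hW ^ 11).2.1
      ((hFd.slash 1 (γ : GL (Fin 2) ℝ)).sub hFd)).mp (funext fun τ => ?_)).resolve_left hb0)
    have e1 := congrFun haF (γ • τ)
    have e2 := congrFun haF τ
    have hd : denom (γ : GL (Fin 2) ℝ) τ ≠ 0 := denom_ne_zero _ _
    have hh' := congrFun hh τ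
    rw [ModularForm.SL_slash_apply, zpow_neg_one, ← eq_mul_inv_iff_mul_eq₀ (inv_ne_zero hd),
      inv_inv] at hh'
    simp only [GW, F1W, deltaW, hhW, anchorW, SubmonoidClass.coe_pow, MulMemClass.coe_mul,
      Pi.mul_apply, Pi.pow_apply] at e1 e2
    rw [hF1.2.1 γ (X1.gamma1_le_gam _ hγ), FermatAgent.ModFun.discriminant_smul, hh',
      zpow_ofNat] at e1
    show (anchor L ^ 11) τ * ((F ∣[(1 : ℤ)] γ) τ - F τ) = 0
    rw [ModularForm.SL_slash_apply, zpow_neg_one, Pi.pow_apply, mul_sub, ← e2, sub_eq_zero]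
    field_simp
    refine mul_left_cancel₀ (pow_ne_zero 11 hd) ?_
    linear_combination -e1
  have hFcf : IsCF (Gamma1 (L * N)) 1 F :=
    ⟨⟨hFd, hinv, fun γ => (hzero γ).isBoundedAtImInfty⟩, hzero⟩
  refine ⟨F, hFcf, mul_right_cancel₀ (pow_ne_zero 11 (qLaurentHom_anchorW_ne_zero hL h5)) ?_⟩
  rw [show coeffMap σ.toRingHom (qLaurent f) = s from rfl, ← hhW, ← hG, ← map_pow,
    show qLaurent F = qLaurentHom ⟨F, WeightOne.mem_cuspRing_of_isMF (T_mem_gamma1 _) hFcf.toIsMF⟩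
      from rfl, ← map_mul, mul_comm]
  exact congrArg _ (Subtype.ext haF.symm)

theorem qLaurent_of_isCF {M : ℕ} {f : ℍ → ℂ} (hf : IsCF (Gamma1 M) 1 f) :
    qLaurent f = toLS (PowerSeries.mk (ModularFormClass.qCoeff f)) :=
  qLaurent_of_hasCoeff (WeightOne.hasCoeff_of_isMF (T_mem_gamma1 M) hf.toIsMF)

/-- Automorphisms of `ℂ` act on weight one cusp forms on `Γ₁(N)`. -/
theorem conjStable (N : ℕ) [NeZero N] : ConjStable N := by
  intro σ f
  have hf : IsCF (Gamma1 N) 1 ⇑f := isCF_coe f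
  obtain ⟨F, hF, hFs⟩ := exists_conj_level (L := 5) (by norm_num) le_rfl σ hf
  obtain ⟨F', hF', hFs'⟩ := exists_conj_level (L := 7) (by norm_num) (by norm_num) σ hf
  have hFF : F = F' := congrArg Subtype.val (qLaurentHom_injective
    (a₁ := ⟨F, WeightOne.mem_cuspRing_of_isMF (T_mem_gamma1 _) hF.toIsMF⟩)
    (a₂ := ⟨F', WeightOne.mem_cuspRing_of_isMF (T_mem_gamma1 _) hF'.toIsMF⟩)
    (hFs.trans hFs'.symm))
  subst hFF
  have hinv : ∀ γ ∈ Gamma1 N, F ∣[(1 : ℤ)] γ = F := fun γ hγ => by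
    obtain ⟨X, hX, Y, hY, rfl⟩ := exists_split_gamma1 N hγ
    rw [SlashAction.slash_mul, hF.inv X hX, hF'.inv Y hY]
  have hG : IsCF (Gamma1 N) 1 F := ⟨⟨hF.holo, hinv, hF.bdd⟩, hF.zero⟩
  refine ⟨hG.toCuspForm, fun n => ?_⟩
  rw [qLaurent_of_isCF hF, qLaurent_of_isCF hf, coeffMap_ofPowerSeries] at hFs
  have := congrArg (PowerSeries.coeff n) (HahnSeries.ofPowerSeries_injective hFs)
  simpa using this

end FermatAgent.DeligneSerre.Conjugates
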