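import Fermat.Agent.DeligneSerre.X1.Basic
import Mathlib.RingTheory.PowerSeries.Inverse
import Mathlib.RingTheory.Polynomial.RationalRoot

/-!
# Quotients of integral power series inside `ℚ((q))`

They form a field containing the function field of `X₁(M)` over `ℚ`; an element which satisfies
a monic equation over `ℤ⟦q⟧` is itself integral.
-/

set_option autoImplicit false

noncomputable section

open Polynomial

namespace FermatAgent.DeligneSerre.Conjugates

open ModularCurve (coeffMap coeffMap_single coeffMap_ofPowerSeries)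
open FermatAgent.DeligneSerre.X1 (x1FieldC x1Gens)

/-- Integral power series as rational Laurent series. -/
def intEmb : PowerSeries ℤ →+* LaurentSeries ℚ :=
  (HahnSeries.ofPowerSeries ℤ ℚ).comp (PowerSeries.map (Int.castRingHom ℚ))

theorem intEmb_injective : Function.Injective intEmb := by
  intro a b h
  rw [intEmb, RingHom.comp_apply, RingHom.comp_apply] at h
  exact PowerSeries.map_injective (Int.castRingHom ℚ) Int.cast_injective
    (HahnSeries.ofPowerSeries_injective h)

/-- The fractions of integral power series as rational Laurent series. -/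
def fracEmb : FractionRing (PowerSeries ℤ) →+* LaurentSeries ℚ :=
  IsFractionRing.lift intEmb_injective

theorem fracEmb_algebraMap (p : PowerSeries ℤ) :
    fracEmb (algebraMap (PowerSeries ℤ) (FractionRing (PowerSeries ℤ)) p) = intEmb p :=
  IsFractionRing.lift_algebraMap intEmb_injective p

theorem intEmb_mem_fracRange (p : PowerSeries ℤ) : intEmb p ∈ fracEmb.fieldRange :=
  ⟨_, fracEmb_algebraMap p⟩

theorem coeffMap_int_mem_fracRange (x : LaurentSeries ℤ) :
    coeffMap (Int.castRingHom ℚ) x ∈ fracEmb.fieldRange := by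
  have hX : ∀ k : ℕ, HahnSeries.single (k : ℤ) (1 : ℚ) ∈ fracEmb.fieldRange := fun k => by
    have h := intEmb_mem_fracRange (PowerSeries.X ^ k)
    simpa [intEmb, HahnSeries.ofPowerSeries_X_pow] using h
  rw [← LaurentSeries.single_order_mul_powerSeriesPart x, map_mul, coeffMap_single, map_one,
    coeffMap_ofPowerSeries]
  refine mul_mem ?_ (intEmb_mem_fracRange _)
  rcases Int.eq_nat_or_neg x.order with ⟨k, hk | hk⟩ <;> rw [hk]
  · exact hX k
  · have e : HahnSeries.single (-(k : ℤ)) (1 : ℚ) = (HahnSeries.single (k : ℤ) (1 : ℚ))⁻¹ :=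
      eq_inv_of_mul_eq_one_left (by simp [HahnSeries.single_mul_single])
    rw [e]
    exact inv_mem (hX k)

theorem x1FieldC_rat_mem_fracRange {M : ℕ} [NeZero M] {x : LaurentSeries ℚ}
    (hx : x ∈ x1FieldC ℚ M) : x ∈ fracEmb.fieldRange := by
  induction hx using IntermediateField.adjoin_induction with
  | mem x hx =>
    rw [← X1.coeffMap_image_x1Gens (Int.castRingHom ℚ) M] at hx
    obtain ⟨y, -, rfl⟩ := hx
    exact coeffMap_int_mem_fracRange y
  | algebraMap c => rw [eq_ratCast]; exact SubfieldClass.ratCast_mem _ c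
  | add a b _ _ ha hb => exact add_mem ha hb
  | inv a _ ha => exact inv_mem ha
  | mul a b _ _ ha hb => exact mul_mem ha hb

/-- An element of the fractions satisfying a monic equation over `ℤ⟦q⟧` is integral. -/
theorem exists_intEmb_of_equation {z : LaurentSeries ℚ} (hz : z ∈ fracEmb.fieldRange) {m : ℕ}
    (s : Finset ℕ) (hs : ∀ i ∈ s, i < m) (w : ℕ → PowerSeries ℤ)
    (h : z ^ m + ∑ i ∈ s, intEmb (w i) * z ^ i = 0) : ∃ p, intEmb p = z := by
  obtain ⟨x, rfl⟩ := hz
  have hx : x ^ m + ∑ i ∈ s, algebraMap _ (FractionRing (PowerSeries ℤ)) (w i) * x ^ i = 0 := by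
    refine fracEmb.injective ?_
    rw [map_zero, map_add, map_sum, map_pow]
    simp only [map_mul, map_pow, fracEmb_algebraMap]
    exact h
  have hint : IsIntegral (PowerSeries ℤ) x := by
    refine ⟨X ^ m + ∑ i ∈ s, C (w i) * X ^ i, monic_X_pow_add ?_, ?_⟩
    · refine (degree_sum_le _ _).trans_lt
        ((Finset.sup_lt_iff (WithBot.bot_lt_coe m)).mpr fun i hi => ?_)
      exact (degree_C_mul_X_pow_le i _).trans_lt (WithBot.coe_lt_coe.mpr (hs i hi))
    · simpa [eval₂_finsetSum] using hx
  obtain ⟨p, rfl⟩ := IsIntegrallyClosed.isIntegral_iff.mp hint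
  exact ⟨p, (fracEmb_algebraMap p).symm⟩

end FermatAgent.DeligneSerre.Conjugates
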