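import Fermat.Agent.DeligneSerre.Conjugates.Conj
import Fermat.Agent.DeligneSerre.Conjugates.IntFrac

/-!
# Bounded denominators of weight one cusp forms with rational expansion

`f` lies in the fractions of `ℤ⟦q⟧` because `f h ^ 11 / Δ` lies in the function field of `X₁(5 N)`
over `ℚ`; multiplied by a common denominator of the equation of `f ^ 12 / Δ` it is integral over
`ℤ⟦q⟧`, hence integral.
-/

set_option autoImplicit false

noncomputable section

open UpperHalfPlane hiding I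
open Polynomial CongruenceSubgroup
open scoped MatrixGroups

namespace FermatAgent.DeligneSerre.Conjugates

open ModularCurve (coeffMap coeffEmb jqModC coeffMap_ofPowerSeries)
open FermatAgent.ModFun (cuspRing qLaurent qLaurentHom toLS polyMap coeffLin)
open FermatAgent.Igusa (deltaModC invDeltaModC invDelta)
open FermatAgent.ModCurve.Forms (IsCF isCF_coe)
open FermatAgent.DeligneSerre.X1 (levelRingOf levelRingOf_le_cuspRing gam T_mem_gam bEvalOf)

theorem coeffEmb_intEmb (p : PowerSeries ℤ) :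
    coeffEmb ℂ (intEmb p) = toLS (p.map (Int.castRingHom ℂ)) :=
  coeffMap_toLS_intCast _ p

theorem deltaModC_eq_intEmb :
    deltaModC ℚ = intEmb (PowerSeries.X * ModularCurve.dedekindEtaUnit) := by
  rw [deltaModC, intEmb, RingHom.comp_apply, map_mul, map_mul, PowerSeries.map_X,
    HahnSeries.ofPowerSeries_X]

theorem jqModC_mul_delta :
    jqModC ℚ * deltaModC ℚ = intEmb (ModularCurve.jNum * ModularCurve.dedekindEtaUnit) := by
  rw [jqModC, deltaModC, mul_mul_mul_comm, HahnSeries.single_mul_single, neg_add_cancel, mul_one,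
    HahnSeries.single_zero_one, one_mul, intEmb, RingHom.comp_apply, map_mul, map_mul]

/-- Below the bound on the degree, `e(j) Δ ^ k` times a common denominator is integral. -/
theorem aeval_mul_delta_mem_range {k : ℕ} {e : ℚ[X]} (he : ∀ l, k ≤ l → e.coeff l = 0) {D : ℤ}
    (hD : ∀ l, ∃ z : ℤ, (D : ℚ) * e.coeff l = z) {r : ℕ} (hr : 0 < r) :
    (D : LaurentSeries ℚ) ^ r * (aeval (jqModC ℚ) e * deltaModC ℚ ^ k) ∈ intEmb.range := by
  have hd : e.natDegree < k + 1 := Nat.lt_succ_of_le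
    (natDegree_le_iff_coeff_eq_zero.mpr fun l hl => he l hl.le)
  rw [aeval_def, eval₂_eq_sum_range' _ hd, Finset.sum_mul, Finset.mul_sum]
  refine sum_mem fun l hl => ?_
  rcases lt_or_ge l k with hlk | hlk
  swap
  · simp only [he l hlk, map_zero, zero_mul, mul_zero]
    exact zero_mem _
  obtain ⟨z, hz⟩ := hD l
  obtain ⟨r', rfl⟩ : ∃ r', r = r' + 1 := ⟨r - 1, by omega⟩
  have key : (D : LaurentSeries ℚ) * (e.coeff l : LaurentSeries ℚ) = (z : ℤ) := by
    have : CharZero (LaurentSeries ℚ) :=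
      charZero_of_injective_algebraMap (algebraMap ℚ (LaurentSeries ℚ)).injective
    rw [← Rat.cast_intCast D, ← Rat.cast_mul, hz, Rat.cast_intCast]
  rw [eq_ratCast]
  have : (D : LaurentSeries ℚ) ^ (r' + 1) *
      ((e.coeff l : LaurentSeries ℚ) * jqModC ℚ ^ l * deltaModC ℚ ^ k) =
      (D : LaurentSeries ℚ) ^ r' * (z : LaurentSeries ℚ) *
        (jqModC ℚ * deltaModC ℚ) ^ l * deltaModC ℚ ^ (k - l) := by
    rw [← key, mul_pow, pow_succ]
    conv_lhs => rw [← Nat.add_sub_cancel' hlk.le, pow_add]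
    ring
  rw [this, jqModC_mul_delta]
  refine mul_mem (mul_mem (mul_mem (pow_mem (intCast_mem _ _) _) (intCast_mem _ _))
    (pow_mem (RingHom.mem_range_self _ _) _)) (pow_mem ?_ _)
  rw [deltaModC_eq_intEmb]
  exact RingHom.mem_range_self _ _

/-- A common denominator of the coefficients of finitely many rational polynomials. -/
theorem exists_common_den (n : ℕ) (c : ℕ → ℚ[X]) :
    ∃ D : ℤ, D ≠ 0 ∧ ∀ i < n, ∀ l, ∃ z : ℤ, (D : ℚ) * (c i).coeff l = z := by
  classical
  set S : Finset (ℕ × ℕ) := (Finset.range n).biUnion fun i => (c i).support.image (Prod.mk i)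
  refine ⟨∏ il ∈ S, (((c il.1).coeff il.2).den : ℤ),
    Finset.prod_ne_zero_iff.mpr fun il _ => Int.natCast_ne_zero.mpr (Rat.den_nz _),
    fun i hi l => ?_⟩
  by_cases hl : (c i).coeff l = 0
  · exact ⟨0, by simp [hl]⟩
  have hmem : (i, l) ∈ S := Finset.mem_biUnion.mpr
    ⟨i, Finset.mem_range.mpr hi, Finset.mem_image.mpr ⟨l, mem_support_iff.mpr hl, rfl⟩⟩
  refine ⟨(∏ il ∈ S.erase (i, l), (((c il.1).coeff il.2).den : ℤ)) * ((c i).coeff l).num, ?_⟩
  rw [← Finset.prod_erase_mul _ _ hmem]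
  push_cast
  rw [mul_assoc, Rat.den_mul_eq_num]

theorem polyBound_rat {m : ℕ} {Φ : ℂ[X][X]} (hΦ : Φ.Monic) (hb : PolyBound m Φ)
    {s : LaurentSeries ℚ} (h : bEvalOf ℂ (coeffEmb ℂ s) Φ = 0) :
    ∃ Φ' : ℚ[X][X], Φ'.Monic ∧ PolyBound m Φ' ∧ bEvalOf ℚ s Φ' = 0 := by
  obtain ⟨φ, hφ⟩ := FermatAgent.ModFun.exists_functional_one (K := ℚ) (L := ℂ)
  set Φ' := polyMap (polyMap φ.toAddMonoidHom) Φ
  set n := Φ.natDegree with hn
  have hdle : Φ'.natDegree ≤ n := FermatAgent.ModFun.natDegree_polyMap_le _ _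
  have hc : Φ'.coeff n = 1 := by
    ext k
    rw [FermatAgent.ModFun.coeff_polyMap, FermatAgent.ModFun.coeff_polyMap, hn, coeff_natDegree,
      hΦ.leadingCoeff, coeff_one, coeff_one]
    have := hφ 1
    rw [map_one] at this
    split_ifs <;> simp [this]
  have hm' : Φ'.Monic := monic_of_natDegree_le_of_coeff_eq_one _ hdle hc
  have hd' : Φ'.natDegree = n := le_antisymm hdle (le_natDegree_of_ne_zero (by simp [hc]))
  refine ⟨Φ', hm', fun i hi l hl => ?_, ?_⟩
  · rw [hd'] at hi hl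
    rw [FermatAgent.ModFun.coeff_polyMap, FermatAgent.ModFun.coeff_polyMap, hb i hi l hl, map_zero]
  · rw [← X1.coeffLin_bEvalOf, ← coeffEmb, h, map_zero]

theorem qLaurentHom_invDeltaW :
    qLaurentHom invDeltaW = coeffEmb ℂ (invDeltaModC ℚ) := by
  rw [coeffEmb, FermatAgent.Igusa.coeffMap_invDeltaModC]
  exact FermatAgent.Igusa.qLaurent_invDelta

theorem invDeltaModC_mul (A : Type*) [CommRing A] : invDeltaModC A * deltaModC A = 1 := by
  rw [mul_comm]; exact FermatAgent.Igusa.deltaModC_mul_inv A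

variable {N : ℕ} [NeZero N] {f : ℍ → ℂ} (hf : IsCF (Gamma1 N) 1 f) {fq : LaurentSeries ℚ}

theorem mem_fracRange_of_rat (hfs : qLaurentHom (formW hf) = coeffEmb ℂ fq) :
    fq ∈ fracEmb.fieldRange := by
  have hL : Nat.Prime 5 := by norm_num
  have hM := five_le_mul (N := N) (le_refl 5)
  obtain ⟨hy, -⟩ := mul_invDelta_mem (isMF_mul_anchor hf hL le_rfl).1
    (isMF_mul_anchor hf hL le_rfl).2
  obtain ⟨hhs, hden⟩ := qLaurentHom_anchorW_mul hL (le_refl 5)
  set Hq : LaurentSeries ℚ := intEmb (anchorNum 5) / intEmb (anchorDen 5) with hHq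
  have hhq : qLaurentHom (anchorW hL le_rfl) = coeffEmb ℂ Hq := by
    rw [hHq, map_div₀, coeffEmb_intEmb, coeffEmb_intEmb, eq_div_iff hden, hhs]
  have hys : qLaurent (f * anchor 5 ^ 11 * invDelta) =
      coeffEmb ℂ (fq * Hq ^ 11 * invDeltaModC ℚ) := by
    have h : qLaurentHom (formW hf * anchorW hL le_rfl ^ 11 * invDeltaW) =
        coeffEmb ℂ (fq * Hq ^ 11 * invDeltaModC ℚ) := by
      rw [map_mul, map_mul, map_pow, hfs, hhq, qLaurentHom_invDeltaW, map_mul, map_mul, map_pow]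
    exact h
  have hHq0 : Hq ≠ 0 := fun h => qLaurentHom_anchorW_ne_zero hL (le_refl 5) (by
    rw [hhq, h, map_zero])
  have h1 := x1FieldC_rat_mem_fracRange (X1.mem_x1FieldC_rat hM hy hys)
  have h2 : fq = fq * Hq ^ 11 * invDeltaModC ℚ * deltaModC ℚ / Hq ^ 11 := by
    rw [mul_assoc _ (invDeltaModC ℚ), invDeltaModC_mul, mul_one,
      mul_div_cancel_right₀ _ (pow_ne_zero _ hHq0)]
  rw [h2, deltaModC_eq_intEmb]
  exact div_mem (mul_mem h1 (intEmb_mem_fracRange _))
    (pow_mem (div_mem (intEmb_mem_fracRange _) (intEmb_mem_fracRange _)) _)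

include hf in
theorem exists_rat_equation (hfs : qLaurentHom (formW hf) = coeffEmb ℂ fq) :
    ∃ Ψ : ℚ[X][X], Ψ.Monic ∧ PolyBound 1 Ψ ∧
      bEvalOf ℚ (fq ^ 12 * invDeltaModC ℚ) Ψ = 0 := by
  have hM := five_le_mul (N := N) (le_refl 5)
  obtain ⟨hy2, hy2b⟩ := mul_invDelta_mem (isMF_pow_twelve (L := 5) hf).1
    (isMF_pow_twelve (L := 5) hf).2
  obtain ⟨Φ, hΦm, hΦb, hΦ⟩ := exists_equation_bound hy2 hy2b
  let uW : cuspRing := formW hf ^ 12 * invDeltaW
  have hu : qLaurentHom uW = coeffEmb ℂ (fq ^ 12 * invDeltaModC ℚ) := by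
    rw [map_mul, map_pow, hfs, qLaurentHom_invDeltaW, map_mul, map_pow]
  refine polyBound_rat hΦm hΦb ?_
  rw [← hu, ← qLaurent_evalCusp, show evalCusp uW Φ = 0 from
    Subtype.ext (funext fun τ => (coe_evalCusp _ _ τ).trans (hΦ τ)), map_zero]

omit hf [NeZero N] in
theorem exists_den_intEmb (hfrac : fq ∈ fracEmb.fieldRange) {Ψ : ℚ[X][X]} (hΨm : Ψ.Monic)
    (hΨb : PolyBound 1 Ψ) (hΨ : bEvalOf ℚ (fq ^ 12 * invDeltaModC ℚ) Ψ = 0) :
    ∃ D : ℤ, D ≠ 0 ∧ ∃ p, intEmb p = (D : LaurentSeries ℚ) * fq := by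
  set n := Ψ.natDegree
  obtain ⟨D, hD, hDz⟩ := exists_common_den n Ψ.coeff
  rw [bEvalOf_monic _ hΨm] at hΨ
  have hw : ∀ i, ∃ w, i < n → intEmb w = (D : LaurentSeries ℚ) ^ (12 * (n - i)) *
      (aeval (jqModC ℚ) (Ψ.coeff i) * deltaModC ℚ ^ (n - i)) := fun i => by
    by_cases hi : i < n
    · obtain ⟨w, hw⟩ := aeval_mul_delta_mem_range (k := n - i)
        (fun l hl => hΨb i hi l (by rwa [one_mul])) (hDz i hi) (r := 12 * (n - i)) (by omega)
      exact ⟨w, fun _ => hw⟩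
    · exact ⟨0, fun h => absurd h hi⟩
  choose w hw using hw
  have hz : ((D : LaurentSeries ℚ) * fq) ^ (12 * n) + ∑ i ∈ (Finset.range n).image (12 * ·),
      intEmb (w (i / 12)) * ((D : LaurentSeries ℚ) * fq) ^ i = 0 := by
    rw [Finset.sum_image (fun a _ b _ h => Nat.eq_of_mul_eq_mul_left (by norm_num) h)]
    have h12 : fq ^ 12 = fq ^ 12 * invDeltaModC ℚ * deltaModC ℚ := by
      rw [mul_assoc, invDeltaModC_mul, mul_one]
    set u := fq ^ 12 * invDeltaModC ℚ
    have := congrArg (fun x => x * ((D : LaurentSeries ℚ) ^ (12 * n) * deltaModC ℚ ^ n)) hΨ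
    simp only [zero_mul, add_mul, Finset.sum_mul] at this
    rw [← this]
    congr 1
    · rw [mul_pow, pow_mul fq, h12, mul_pow]
      ring
    · refine Finset.sum_congr rfl fun i hi => ?_
      have hi' := Finset.mem_range.mp hi
      rw [Nat.mul_div_cancel_left _ (by norm_num : 0 < 12), hw i hi', mul_pow, pow_mul fq, h12,
        mul_pow, show 12 * n = 12 * (n - i) + 12 * i by omega,
        show deltaModC ℚ ^ n = deltaModC ℚ ^ (n - i) * deltaModC ℚ ^ i by
          rw [← pow_add, Nat.sub_add_cancel hi'.le], pow_add]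
      ring
  exact ⟨D, hD, exists_intEmb_of_equation (mul_mem (intCast_mem _ D) hfrac) _
    (fun i hi => by
      obtain ⟨a, ha, rfl⟩ := Finset.mem_image.mp hi
      have := Finset.mem_range.mp ha
      omega) _ hz⟩

/-- Weight one cusp forms with rational coefficients have bounded denominators. -/
theorem boundedDenominators (N : ℕ) [NeZero N] : BoundedDenominators N := by
  intro f hrat
  choose c hc using hrat
  have hf : IsCF (Gamma1 N) 1 ⇑f := isCF_coe f
  set fq : LaurentSeries ℚ := HahnSeries.ofPowerSeries ℤ ℚ (PowerSeries.mk c) with hfq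
  have hfs : qLaurentHom (formW hf) = coeffEmb ℂ fq := by
    show qLaurent ⇑f = _
    rw [qLaurent_of_isCF hf, hfq, coeffEmb, coeffMap_ofPowerSeries]
    congr 1
    ext n
    simp [hc]
  obtain ⟨Ψ, hΨm, hΨb, hΨ⟩ := exists_rat_equation hf hfs
  obtain ⟨D, hD, p, hp⟩ := exists_den_intEmb (mem_fracRange_of_rat hf hfs) hΨm hΨb hΨ
  refine ⟨D, hD, fun k => ⟨p.coeff k, ?_⟩⟩
  have hk : intEmb p = HahnSeries.ofPowerSeries ℤ ℚ (PowerSeries.C (D : ℚ) * PowerSeries.mk c) := by
    rw [hp, map_mul, map_intCast, map_intCast, hfq]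
  rw [intEmb, RingHom.comp_apply] at hk
  have hk' := congrArg (PowerSeries.coeff k) (HahnSeries.ofPowerSeries_injective hk)
  simp only [PowerSeries.coeff_map, PowerSeries.coeff_C_mul, PowerSeries.coeff_mk,
    eq_intCast] at hk'
  rw [hc k, ← Rat.cast_intCast, ← Rat.cast_mul, ← hk', Rat.cast_intCast]

end FermatAgent.DeligneSerre.Conjugates
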