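import Fermat.Agent.DeligneSerre.Conjugates.Denom
import Fermat.Agent.DeligneSerre.Conjugates.CoeffField

/-!
# Weight one eigenforms: coefficient field and integral eigenform
-/

set_option autoImplicit false

noncomputable section

open CongruenceSubgroup

namespace FermatAgent.DeligneSerre.Conjugates

open ModularFormClass (qCoeff)

variable {N : ℕ} [NeZero N] {ε : DirichletCharacter ℂ N} {f : CuspForm (Gamma1 N) 1}

/-- The coefficient field of a weight one eigenform. -/
theorem coeffField_weightOne (hf₁ : qCoeff f 1 = 1)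
    (hT : ∀ p : ℕ, p.Prime → ¬ p ∣ N → ∀ n : ℕ,
      qCoeff f (p * n) + ε (p : ZMod N) * (if p ∣ n then qCoeff f (n / p) else 0) =
        qCoeff f p * qCoeff f n) :
    CoeffField (qCoeff f) ε :=
  coeffField_of_eigen (conjStable N) (boundedDenominators N) hf₁ hT

/-- An integral eigenform with the same eigenvalues. -/
theorem exists_integral_weightOne (hf₁ : qCoeff f 1 = 1)
    (hT : ∀ p : ℕ, p.Prime → ¬ p ∣ N → ∀ n : ℕ,
      qCoeff f (p * n) + ε (p : ZMod N) * (if p ∣ n then qCoeff f (n / p) else 0) =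
        qCoeff f p * qCoeff f n) :
    ∃ f₀ : CuspForm (Gamma1 N) 1, (∀ n, IsIntegral ℤ (qCoeff f₀ n)) ∧ qCoeff f₀ 1 ≠ 0 ∧
      ∀ p : ℕ, p.Prime → ¬ p ∣ N → ∀ n : ℕ,
        qCoeff f₀ (p * n) + ε (p : ZMod N) * (if p ∣ n then qCoeff f₀ (n / p) else 0) =
          qCoeff f p * qCoeff f₀ n :=
  exists_integral_eigenform (conjStable N) (boundedDenominators N) hf₁ hT

end FermatAgent.DeligneSerre.Conjugates
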