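import Mathlib.NumberTheory.ModularForms.CongruenceSubgroups
import Mathlib.NumberTheory.ModularForms.Basic
import Fermat.Prelude.Def_FLTPrelim_Modularity

/-!
# Two properties of weight one cusp forms for `Γ₁(N)`

Stability under automorphisms of `ℂ` acting on expansions, and bounded denominators of rational
expansions. They are proved in `Conjugates/Conj.lean` and `Conjugates/Denom.lean`.
-/

set_option autoImplicit false

noncomputable section

open CongruenceSubgroup

namespace FermatAgent.DeligneSerre.Conjugates

open ModularFormClass (qCoeff)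

/-- Automorphisms of `ℂ` act on weight one cusp forms through their coefficients. -/
def ConjStable (N : ℕ) : Prop :=
  ∀ (τ : ℂ ≃+* ℂ) (f : CuspForm (Gamma1 N) 1),
    ∃ g : CuspForm (Gamma1 N) 1, ∀ n, qCoeff g n = τ (qCoeff f n)

/-- Forms with rational coefficients have bounded denominators. -/
def BoundedDenominators (N : ℕ) : Prop :=
  ∀ f : CuspForm (Gamma1 N) 1, (∀ n, ∃ r : ℚ, qCoeff f n = r) →
    ∃ D : ℤ, D ≠ 0 ∧ ∀ n, ∃ z : ℤ, (D : ℂ) * qCoeff f n = z

end FermatAgent.DeligneSerre.Conjugates
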