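import Fermat.Agent.DeligneSerre.Conjugates.Aut
import Fermat.Agent.DeligneSerre.Conjugates.Structure
import Fermat.Prelude.Thm_ModularForm_eq_zero_of_lt_order_qExpansion_of_isArithmetic

/-!
# A rational basis of weight one cusp forms for `Γ₁(N)`

The first coefficients determine a form (Sturm), so some finite set `I` of coefficients gives
coordinates; the dual basis is fixed by the automorphisms of `ℂ`, hence rational.
-/

set_option autoImplicit false

noncomputable section

open CongruenceSubgroup UpperHalfPlane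
open scoped MatrixGroups Pointwise

namespace FermatAgent.DeligneSerre.Conjugates

open ModularFormClass (qCoeff)

variable {N : ℕ}

theorem one_mem_periods (N : ℕ) :
    (1 : ℝ) ∈ (Gamma1 N : Subgroup (GL (Fin 2) ℝ)).strictPeriods := by
  simp [strictPeriods_Gamma1]

/-- The `n`-th coefficient as a linear form. -/
def qc (N n : ℕ) : CuspForm (Gamma1 N) 1 →ₗ[ℂ] ℂ where
  toFun f := qCoeff f n
  map_add' f g := by
    simp only [qCoeff, FunLike.coe_add,
      ModularForm.qExpansion_add one_pos (one_mem_periods N) f g, map_add]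
  map_smul' c f := by
    simp only [qCoeff, FunLike.coe_smul,
      ModularForm.qExpansion_smul one_pos (one_mem_periods N) c f, PowerSeries.coeff_smul,
      RingHom.id_apply]

@[simp] theorem qc_apply (f : CuspForm (Gamma1 N) 1) (n : ℕ) : qc N n f = qCoeff f n := rfl

/-- The cusp form as a modular form. -/
def toMF (f : CuspForm (Gamma1 N) 1) : ModularForm (Gamma1 N) 1 where
  toSlashInvariantForm := f.toSlashInvariantForm
  holo' := f.holo'
  bdd_at_cusps' hc g hg := (f.zero_at_cusps' hc g hg).boundedAtFilter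

theorem coe_toMF (f : CuspForm (Gamma1 N) 1) : ⇑(toMF f) = ⇑f := rfl

theorem gamma_le_conj_gamma1 (γ : SL(2, ℤ)) {g : SL(2, ℤ)} (hg : g ∈ Gamma N) :
    γ⁻¹ * g * γ ∈ Gamma1 N := by
  have h := (Gamma_normal N).conj_mem g hg γ⁻¹
  rw [inv_inv] at h
  obtain ⟨h00, h01, h10, h11⟩ := Gamma_mem.mp h
  exact (Gamma1_mem N _).mpr ⟨h00, h11, h10⟩

theorem natCast_mem_conj_periods (γ : SL(2, ℤ)) :
    (N : ℝ) ∈ (ConjAct.toConjAct (Matrix.SpecialLinearGroup.mapGL ℝ γ) •
      (Gamma1 N : Subgroup (GL (Fin 2) ℝ))).strictPeriods := by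
  rw [Subgroup.mem_strictPeriods_iff, Subgroup.mem_pointwise_smul_iff_inv_smul_mem]
  have hT : ModularGroup.T ^ (N : ℤ) ∈ Gamma N := by
    rw [Gamma_mem, ModularGroup.coe_T_zpow]
    simp
  refine ⟨γ⁻¹ * ModularGroup.T ^ (N : ℤ) * γ, gamma_le_conj_gamma1 γ hT, ?_⟩
  rw [← ConjAct.toConjAct_inv, ConjAct.toConjAct_smul, map_mul, map_mul, map_inv, inv_inv]
  congr 2
  ext i j
  rw [Matrix.SpecialLinearGroup.mapGL_coe_matrix, Matrix.SpecialLinearGroup.map_apply_coe,
    ModularGroup.coe_T_zpow]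
  fin_cases i <;> fin_cases j <;> simp [Matrix.GeneralLinearGroup.upperRightHom]

variable (N) [NeZero N]

/-- The first coefficients determine the form. -/
theorem exists_bound : ∃ B : ℕ, ∀ f : CuspForm (Gamma1 N) 1,
    (∀ n < B, qCoeff f n = 0) → f = 0 := by
  refine ⟨N * ((1 * (Gamma1 N : Subgroup (GL (Fin 2) ℝ)).relIndex 𝒮ℒ : ℤ).toNat / 12) + 1,
    fun f hf => ?_⟩
  suffices h : toMF f = 0 by
    refine DFunLike.coe_injective ?_
    rw [← coe_toMF, h]
    rfl
  refine ModularForm.eq_zero_of_lt_order_qExpansion_of_isArithmetic (toMF f) (NeZero.pos N)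
    (natCast_mem_conj_periods (N := N)) ?_
  have hNp : (N : ℝ) ∈ (Gamma1 N : Subgroup (GL (Fin 2) ℝ)).strictPeriods := by
    have h := natCast_mem_conj_periods (N := N) 1
    simpa using h
  have hN0 : (0 : ℝ) < N := Nat.cast_pos.mpr (NeZero.pos N)
  have hdil : ∀ m : ℕ, (qExpansion (N : ℝ) ⇑(toMF f)).coeff m =
      if N ∣ m then qCoeff f (m / N) else 0 := fun m => by
    refine (ModularFormClass.qExpansion_coeff_unique hN0 hNp
      (c := fun m => if N ∣ m then qCoeff f (m / N) else 0) (fun τ => ?_) m).symm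
    have : Fact (IsCusp OnePoint.infty (Gamma1 N : Subgroup (GL (Fin 2) ℝ))) :=
      ⟨Subgroup.isCusp_of_mem_strictPeriods one_pos (one_mem_periods N)⟩
    have h := ModularForm.hasSum_qExpansion (k := (1 : ℤ)) f one_pos (one_mem_periods N) τ
    have hq : Function.Periodic.qParam 1 (τ : ℂ) =
        Function.Periodic.qParam (N : ℝ) (τ : ℂ) ^ N := by
      rw [Function.Periodic.qParam, Function.Periodic.qParam, ← Complex.exp_nat_mul]
      congr 1
      have : (N : ℂ) ≠ 0 := Nat.cast_ne_zero.mpr (NeZero.ne N)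
      push_cast
      field_simp
    have hi : Function.Injective (fun n : ℕ => N * n) := mul_right_injective₀ (NeZero.ne N)
    refine (hi.hasSum_iff ?_).mp (h.congr_fun fun n => ?_)
    · intro n hn
      rw [if_neg fun ⟨r, hr⟩ => hn ⟨r, hr.symm⟩, zero_smul]
    · simp [hq, pow_mul, qCoeff, Nat.mul_div_cancel_left _ (NeZero.pos N)]
  refine lt_of_lt_of_le (ENat.natCast_lt_natCast.mpr ?_) (PowerSeries.nat_le_order _ _ fun m hm => ?_)
    (b := ((N * ((1 * (Gamma1 N : Subgroup (GL (Fin 2) ℝ)).relIndex 𝒮ℒ : ℤ).toNat / 12) + 1 : ℕ)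
      : ℕ∞))
  · omega
  rw [hdil]
  split_ifs with hd
  · exact hf _ ((Nat.div_le_self m N).trans_lt hm)
  · rfl

/-- Finitely many coefficients are coordinates. -/
theorem exists_coords : ∃ I : Finset ℕ,
    Function.Bijective fun (f : CuspForm (Gamma1 N) 1) (i : I) => qCoeff f i := by
  classical
  obtain ⟨B, hB⟩ := exists_bound N
  have hex : ∃ c : ℕ, ∃ I : Finset ℕ, I.card = c ∧
      ∀ f : CuspForm (Gamma1 N) 1, (∀ i ∈ I, qCoeff f i = 0) → f = 0 :=
    ⟨_, Finset.range B, rfl, fun f hf => hB f fun n hn => hf n (Finset.mem_range.mpr hn)⟩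
  obtain ⟨I, hI, hinj⟩ := Nat.find_spec hex
  let Φ : CuspForm (Gamma1 N) 1 →ₗ[ℂ] (I → ℂ) := LinearMap.pi fun i => qc N i
  refine ⟨I, show Function.Bijective Φ from ⟨?_, ?_⟩⟩
  · refine (injective_iff_map_eq_zero Φ).mpr fun f hf => hinj f fun i hi => ?_
    exact congrFun hf ⟨i, hi⟩
  · rw [← LinearMap.range_eq_top]
    by_contra hne
    obtain ⟨v, -, hv⟩ := SetLike.exists_of_lt (lt_top_iff_ne_top.mpr hne)
    obtain ⟨φ, hφ, hker⟩ := Submodule.exists_le_ker_of_notMem hv
    obtain ⟨j, hj⟩ : ∃ j : I, φ (Pi.single j 1) ≠ 0 := by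
      by_contra hall
      simp only [not_exists, not_not] at hall
      refine hφ ?_
      rw [pi_eq_sum_univ' v, map_sum]
      exact Finset.sum_eq_zero fun i _ => by rw [map_smul, hall, smul_zero]
    refine Nat.find_min hex (m := (I.erase j).card)
      (hI ▸ Finset.card_erase_lt_of_mem j.2) ⟨_, rfl, fun f hf => hinj f fun i hi => ?_⟩
    rcases eq_or_ne i (j : ℕ) with rfl | hij
    · have h0 : φ (Φ f) = 0 := hker (LinearMap.mem_range_self Φ f)
      rw [pi_eq_sum_univ' (Φ f), map_sum, Finset.sum_eq_single j, map_smul, smul_eq_mul] at h0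
      · exact (mul_eq_zero.mp h0).resolve_right hj
      · intro i _ hne'
        have : Φ f i = 0 := hf i (Finset.mem_erase.mpr ⟨fun e => hne' (Subtype.ext e), i.2⟩)
        rw [this, zero_smul, map_zero]
      · simp
    · exact hf i (Finset.mem_erase.mpr ⟨hij, hi⟩)

/-- A basis with rational coefficients, indexed by coordinates, with bounded denominators. -/
structure RatBasis where
  idx : Finset ℕ
  form : idx → CuspForm (Gamma1 N) 1
  coeff : idx → ℕ → ℚ
  qCoeff_form : ∀ i n, qCoeff (form i) n = coeff i n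
  expand : ∀ f : CuspForm (Gamma1 N) 1, ∀ n, qCoeff f n = ∑ i : idx, qCoeff f (i : ℕ) * coeff i n
  denom : ℤ
  denom_ne : denom ≠ 0
  integral : ∀ i n, ∃ z : ℤ, (denom : ℂ) * coeff i n = z

theorem exists_ratBasis (h1 : ConjStable N) (h2 : BoundedDenominators N) :
    Nonempty (RatBasis N) := by
  classical
  obtain ⟨I, hI⟩ := exists_coords N
  choose b hb using fun i : I => hI.2 (Pi.single i 1)
  have hb' : ∀ i j : I, qCoeff (b i) j = Pi.single (M := fun _ : I => ℂ) i 1 j :=
    fun i j => congrFun (hb i) j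
  have hrat : ∀ i n, ∃ r : ℚ, qCoeff (b i) n = r := fun i n => by
    refine exists_rat_of_fixed fun τ => ?_
    obtain ⟨g, hg⟩ := h1 τ (b i)
    have hgb : g = b i := hI.1 <| funext fun j => by
      show qCoeff g j = qCoeff (b i) j
      rw [hg, hb']
      rcases eq_or_ne j i with rfl | hji
      · simp
      · simp [Pi.single_eq_of_ne hji]
    rw [← hg, hgb]
  choose r hr using hrat
  choose D hD hint using fun i => h2 (b i) fun n => ⟨r i n, hr i n⟩
  refine ⟨⟨I, b, r, hr, fun f n => ?_, ∏ i, D i, Finset.prod_ne_zero_iff.mpr fun i _ => hD i,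
    fun i n => ?_⟩⟩
  · have e : f = ∑ i : I, qCoeff f (i : ℕ) • b i := hI.1 <| funext fun j => by
      show qCoeff f j = qc N j (∑ i : I, qCoeff f (i : ℕ) • b i)
      rw [map_sum, Finset.sum_eq_single j]
      · rw [map_smul, qc_apply, hb', Pi.single_eq_same, smul_eq_mul, mul_one]
      · intro i _ hij
        rw [map_smul, qc_apply, hb', Pi.single_eq_of_ne hij.symm, smul_zero]
      · simp
    conv_lhs => rw [e, ← qc_apply, map_sum]
    exact Finset.sum_congr rfl fun i _ => by rw [map_smul, qc_apply, hr, smul_eq_mul]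
  · obtain ⟨z, hz⟩ := hint i n
    refine ⟨(∏ j ∈ Finset.univ.erase i, D j) * z, ?_⟩
    rw [← Finset.mul_prod_erase Finset.univ D (Finset.mem_univ i), Int.cast_mul, Int.cast_mul,
      ← hr, ← hz]
    ring

end FermatAgent.DeligneSerre.Conjugates
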